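import Mathlib
import Fermat.Agent.LT.T7.H250.NormPos
import Fermat.Agent.LT.T1.H309.AdNorm

/-!
# Row LT, tower T7, leaf T7.14.4 (`OrthC`), part 2: translation on the frame (helper555)

OFF-MAIN.  On `T5/Spec.lean` (v4, sha f2d97e70), helper250 `LT/T7/H250/NormPos.lean` (positive
scalars at the infinite places, module of the determinant, countability of `GL₂(K)`), helper309
`LT/T1/H309/AdNorm.lean` (multiplicativity of the module), byte-identical copies.

* `integral_shift555`: for a frame `(μ, F)`, `x ∈ GL₂(𝔸_K)` with `‖det (g x)‖ = ‖det g‖` and a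
  bounded continuous `Ψ`, left invariant under `GL₂(K)`: `∫_F Ψ(g x) dμ = ∫_F Ψ(g) dμ`
  (`F = ⊔_γ A_γ = ⊔_γ B_γ`, `g ↦ γ g x` maps `A_γ` onto `B_γ` and preserves `μ`).
* `inner_translate555`: for `φ, φ'` bounded continuous, left invariant under `GL₂(K)` and right
  invariant under the positive scalars at the infinite places, and ANY `h ∈ GL₂(𝔸_K)`:
  `∫_F φ(g h) conj φ'(g) dμ = ∫_F φ(g) conj φ'(g h⁻¹) dμ` (compensate `‖det h‖` by a positive
  scalar at the infinite places).
-/

set_option autoImplicit false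

open IsDedekindDomain NumberField MeasureTheory AutomorphicForm
open Fermat.Agent.LT.H556.A0
open Fermat.Agent.LT
open scoped ComplexConjugate

noncomputable section

namespace Fermat.Agent.LT.T7.H555

open Fermat.Agent.LT.T7.H250

attribute [local instance] Fermat.Agent.LT.T5.instMeasurableSpaceG

variable {K : Type} [Field K] [NumberField K]

/-- Bounded continuous functions are integrable on the frame. -/
theorem integrableOn_frame555 {μ : Measure (G K)} {F : Set (G K)} (hF : T5.IsFrame μ F)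
    {Ψ : G K → ℂ} (hc : Continuous Ψ) (hb : ∃ C : ℝ, ∀ g : G K, ‖Ψ g‖ ≤ C) :
    IntegrableOn Ψ F μ := by
  have : BorelSpace (G K) := ⟨rfl⟩
  obtain ⟨C, hC⟩ := hb
  exact Measure.integrableOn_of_bounded (M := C) hF.finite.ne hc.aestronglyMeasurable
    (Filter.Eventually.of_forall hC)

/-- **Translation on the frame** by an element which preserves the module of the
determinant. -/
theorem integral_shift555 {μ : Measure (G K)} {F : Set (G K)} (hF : T5.IsFrame μ F)
    (x : G K) (hx : ∀ g : G K, detN250n (g * x) = detN250n g)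
    {Ψ : G K → ℂ} (hc : Continuous Ψ) (hb : ∃ C : ℝ, ∀ g : G K, ‖Ψ g‖ ≤ C)
    (hinv : ∀ (γ : GL (Fin 2) K) (g : G K), Ψ (T5.ratG γ * g) = Ψ g) :
    ∫ g in F, Ψ (g * x) ∂μ = ∫ g in F, Ψ g ∂μ := by
  classical
  have hbs : BorelSpace (G K) := ⟨rfl⟩
  have hhaar := hF.haar
  have hcnt : Countable (GL (Fin 2) K) := countable_GL250n K
  -- right multiplication preserves the slab
  have hslab : ∀ g : G K, g ∈ T5.slab K → g * x ∈ T5.slab K := by
    intro g hg
    rw [mem_slab_iff250n] at hg ⊢
    rw [hx]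
    exact hg
  have hslab' : ∀ g : G K, g ∈ T5.slab K → g * x⁻¹ ∈ T5.slab K := by
    intro g hg
    rw [mem_slab_iff250n] at hg ⊢
    have := hx (g * x⁻¹)
    rw [inv_mul_cancel_right] at this
    rw [← this]
    exact hg
  -- the pieces
  set A : GL (Fin 2) K → Set (G K) := fun γ => F ∩ (fun g => T5.ratG γ * g * x) ⁻¹' F with hA
  set B : GL (Fin 2) K → Set (G K) :=
    fun γ => F ∩ (fun g => T5.ratG γ⁻¹ * g * x⁻¹) ⁻¹' F with hB
  have hcT : ∀ (a b : G K), Continuous fun g : G K => a * g * b := fun a b =>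
    (continuous_const.mul continuous_id).mul continuous_const
  have hAm : ∀ γ, MeasurableSet (A γ) := fun γ =>
    hF.meas.inter ((hcT _ _).measurable hF.meas)
  have hBm : ∀ γ, MeasurableSet (B γ) := fun γ =>
    hF.meas.inter ((hcT _ _).measurable hF.meas)
  have hAF : ⋃ γ, A γ = F := by
    apply Set.Subset.antisymm
    · exact Set.iUnion_subset fun γ => Set.inter_subset_left
    · intro g hg
      obtain ⟨γ, hγ, -⟩ := hF.strict _ (hslab g (hF.sub hg))
      refine Set.mem_iUnion.2 ⟨γ, hg, ?_⟩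
      show T5.ratG γ * g * x ∈ F
      rw [mul_assoc]
      exact hγ
  have hBF : ⋃ γ, B γ = F := by
    apply Set.Subset.antisymm
    · exact Set.iUnion_subset fun γ => Set.inter_subset_left
    · intro g hg
      obtain ⟨γ, hγ, -⟩ := hF.strict _ (hslab' g (hF.sub hg))
      refine Set.mem_iUnion.2 ⟨γ⁻¹, hg, ?_⟩
      show T5.ratG γ⁻¹⁻¹ * g * x⁻¹ ∈ F
      rw [inv_inv, mul_assoc]
      exact hγ
  have hAd : Pairwise (Function.onFun Disjoint A) := by
    intro γ γ' hne
    rw [Function.onFun, Set.disjoint_left]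
    intro g hg hg'
    apply hne
    have h1 : T5.ratG γ * (g * x) ∈ F := by rw [← mul_assoc]; exact hg.2
    have h2 : T5.ratG γ' * (g * x) ∈ F := by rw [← mul_assoc]; exact hg'.2
    exact (hF.strict _ (hslab g (hF.sub hg.1))).unique h1 h2
  have hBd : Pairwise (Function.onFun Disjoint B) := by
    intro γ γ' hne
    rw [Function.onFun, Set.disjoint_left]
    intro g hg hg'
    apply hne
    have h1 : T5.ratG γ⁻¹ * (g * x⁻¹) ∈ F := by rw [← mul_assoc]; exact hg.2
    have h2 : T5.ratG γ'⁻¹ * (g * x⁻¹) ∈ F := by rw [← mul_assoc]; exact hg'.2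
    exact inv_injective ((hF.strict _ (hslab' g (hF.sub hg.1))).unique h1 h2)
  have hcR0 : Continuous fun g : G K => g * x := continuous_id.mul continuous_const
  have hint1 : IntegrableOn (fun g => Ψ (g * x)) F μ :=
    integrableOn_frame555 hF (hc.comp hcR0)
      (by obtain ⟨C, hC⟩ := hb; exact ⟨C, fun g => hC _⟩)
  have hint2 : IntegrableOn Ψ F μ := integrableOn_frame555 hF hc hb
  -- the change of variables on each piece
  have key : ∀ γ, ∫ g in A γ, Ψ (g * x) ∂μ = ∫ g in B γ, Ψ g ∂μ := by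
    intro γ
    have hmpL : MeasurePreserving (fun g : G K => T5.ratG γ * g) μ μ :=
      measurePreserving_mul_left μ _
    have hcR : Continuous fun g : G K => g * x := continuous_id.mul continuous_const
    have hmpR : MeasurePreserving (fun g : G K => g * x) μ μ :=
      ⟨hcR.measurable,
        Measure.ext fun S hS => by
          rw [Measure.map_apply hcR.measurable hS]
          exact hF.right_inv x S hS⟩
    have hmp : MeasurePreserving (fun g : G K => T5.ratG γ * g * x) μ μ := hmpR.comp hmpL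
    have hemb : MeasurableEmbedding (fun g : G K => T5.ratG γ * g * x) :=
      ((Homeomorph.mulLeft (T5.ratG γ)).trans (Homeomorph.mulRight x)).measurableEmbedding
    have hpre : (fun g : G K => T5.ratG γ * g * x) ⁻¹' (B γ) = A γ := by
      ext g
      simp only [hA, hB, Set.mem_preimage, Set.mem_inter_iff]
      have e : T5.ratG γ⁻¹ * (T5.ratG γ * g * x) * x⁻¹ = g := by
        rw [map_inv]; group
      rw [e]
      exact and_comm
    have h := hmp.setIntegral_preimage_emb hemb Ψ (B γ)
    rw [hpre] at h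
    rw [← h]
    refine setIntegral_congr_fun (hAm γ) fun g _ => ?_
    show Ψ (g * x) = Ψ (T5.ratG γ * g * x)
    rw [mul_assoc, hinv]
  calc ∫ g in F, Ψ (g * x) ∂μ
      = ∫ g in ⋃ γ, A γ, Ψ (g * x) ∂μ := by rw [hAF]
    _ = ∑' γ, ∫ g in A γ, Ψ (g * x) ∂μ :=
        integral_iUnion hAm hAd (by rw [hAF]; exact hint1)
    _ = ∑' γ, ∫ g in B γ, Ψ g ∂μ := by
        congr 1
        funext γ
        exact key γ
    _ = ∫ g in ⋃ γ, B γ, Ψ g ∂μ :=
        (integral_iUnion hBm hBd (by rw [hBF]; exact hint2)).symm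
    _ = ∫ g in F, Ψ g ∂μ := by rw [hBF]

/-! ### Compensation of the module by a positive scalar at the infinite places -/

/-- The positive scalars at the infinite places are central. -/
theorem cR_comm555 (r : ℝ) (hr : r ≠ 0) (h : G K) : cR250n r hr * h = h * cR250n r hr := by
  apply Units.ext
  rw [Units.val_mul, Units.val_mul]
  unfold cR250n
  rw [zR250n_val]
  ext i j
  rw [Matrix.diagonal_mul, Matrix.mul_diagonal, mul_comm]

/-- The module of the determinant is multiplicative (helper309). -/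
theorem detN_mul555 (g h : G K) : detN250n (g * h) = detN250n g * detN250n h := by
  have e := Fermat.Agent.LT.T1.H309.adNorm_mul309 K (Matrix.GeneralLinearGroup.det g)
    (Matrix.GeneralLinearGroup.det h)
  rw [← map_mul] at e
  simp only [Matrix.GeneralLinearGroup.val_det_apply] at e
  exact e

/-- For every `h` there is a positive scalar `c` at the infinite places such that right
multiplication by `h c` preserves the module of the determinant. -/
theorem exists_compensator555 (h : G K) :
    ∃ (r : ℝ) (hr : 0 < r), ∀ g : G K, detN250n (g * (h * cR250n r hr.ne')) = detN250n g := by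
  have hn : Module.finrank ℚ K * 2 ≠ 0 := by
    have : 0 < Module.finrank ℚ K := Module.finrank_pos
    omega
  have hpos : 0 < detN250n h := detN250n_pos h
  set r : ℝ := (detN250n h)⁻¹ ^ (((Module.finrank ℚ K * 2 : ℕ) : ℝ)⁻¹) with hr
  have hrpos : 0 < r := Real.rpow_pos_of_pos (inv_pos.mpr hpos) _
  have hrpow : r ^ (Module.finrank ℚ K * 2) = (detN250n h)⁻¹ :=
    Real.rpow_inv_natCast_pow (inv_pos.mpr hpos).le hn
  refine ⟨r, hrpos, fun g => ?_⟩
  rw [← mul_assoc, detN250n_mul_cR, detN_mul555, abs_of_pos hrpos, ← pow_mul, hrpow, mul_assoc,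
    mul_inv_cancel₀ hpos.ne', mul_one]

/-- **Translation in the inner product on the frame.** -/
theorem inner_translate555 {μ : Measure (G K)} {F : Set (G K)} (hF : T5.IsFrame μ F)
    {φ φ' : G K → ℂ} (hc : Continuous φ) (hc' : Continuous φ')
    (hb : ∃ C : ℝ, ∀ g : G K, ‖φ g‖ ≤ C) (hb' : ∃ C : ℝ, ∀ g : G K, ‖φ' g‖ ≤ C)
    (hl : ∀ (γ : GL (Fin 2) K) (g : G K), φ (T5.ratG γ * g) = φ g)
    (hl' : ∀ (γ : GL (Fin 2) K) (g : G K), φ' (T5.ratG γ * g) = φ' g)
    (hs : ∀ (w : InfinitePlace K) (z : G K), IsArchPosScalar w z → ∀ g : G K, φ (g * z) = φ g)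
    (hs' : ∀ (w : InfinitePlace K) (z : G K), IsArchPosScalar w z →
      ∀ g : G K, φ' (g * z) = φ' g)
    (h : G K) :
    ∫ g in F, φ (g * h) * conj (φ' g) ∂μ = ∫ g in F, φ g * conj (φ' (g * h⁻¹)) ∂μ := by
  obtain ⟨r, hr, hx⟩ := exists_compensator555 h
  set c : G K := cR250n r hr.ne' with hcdef
  obtain ⟨C, hC⟩ := hb
  obtain ⟨C', hC'⟩ := hb'
  have hcinv : Continuous fun g : G K => g * (h * c)⁻¹ := continuous_id.mul continuous_const
  have hΨc : Continuous fun g : G K => φ g * conj (φ' (g * (h * c)⁻¹)) :=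
    hc.mul (Complex.continuous_conj.comp (hc'.comp hcinv))
  have hΨb : ∃ M : ℝ, ∀ g : G K, ‖φ g * conj (φ' (g * (h * c)⁻¹))‖ ≤ M := by
    refine ⟨C * C', fun g => ?_⟩
    rw [norm_mul, RCLike.norm_conj]
    exact mul_le_mul (hC g) (hC' _) (norm_nonneg _) ((norm_nonneg _).trans (hC g))
  have hΨl : ∀ (γ : GL (Fin 2) K) (g : G K),
      φ (T5.ratG γ * g) * conj (φ' (T5.ratG γ * g * (h * c)⁻¹))
        = φ g * conj (φ' (g * (h * c)⁻¹)) := by
    intro γ g
    rw [hl, mul_assoc, hl']
  have key := integral_shift555 hF (h * c) hx hΨc hΨb hΨl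
  have e1 : ∀ g : G K, φ (g * (h * c)) * conj (φ' (g * (h * c) * (h * c)⁻¹))
      = φ (g * h) * conj (φ' g) := by
    intro g
    rw [mul_inv_cancel_right, ← mul_assoc, hcdef, inv_cR250n hs r hr]
  have e2 : ∀ g : G K, φ g * conj (φ' (g * (h * c)⁻¹)) = φ g * conj (φ' (g * h⁻¹)) := by
    intro g
    have e3 : g * (h * c)⁻¹ * c = g * h⁻¹ := by
      have hcc : c * h⁻¹ = h⁻¹ * c := cR_comm555 r hr.ne' h⁻¹
      rw [mul_inv_rev, mul_assoc, mul_assoc, ← hcc, inv_mul_cancel_left]
    have e4 := inv_cR250n hs' r hr (g * (h * c)⁻¹)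
    rw [← hcdef, e3] at e4
    rw [e4]
  simp only [e1, e2] at key
  exact key

end Fermat.Agent.LT.T7.H555
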