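import Mathlib
import Fermat.Agent.LT.H129.HeckeExists

/-!
# Row LT, tower T7, leaf T7.14.4 (`OrthC`), part 1: a symmetric Hecke coset system (helper555)

OFF-MAIN.  On the local tools of helper129 (`LT/H129/{Local, HeckeA0, HeckeExists}.lean`,
byte-identical copies).

For a finite place `v`, a uniformiser `π` of `K_v` and the representatives `r` of `𝓞 K ⧸ v`:

* `symHecke555`  : the SYMMETRIC system `[[r² + π, r], [r, 1]]`, `[[1, 0], [0, π]]`;
* `dualHecke555` : the system `[[1, -r], [-r, r² + π]]`, `[[π, 0], [0, 1]]`;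
* `scalU555`     : the scalar uniformiser `z = [[π, 0], [0, π]]`.

Both are Hecke coset systems in the sense of `A0.IsHeckeCosetSystem`
(`isHeckeCosetSystem_sym555`, `isHeckeCosetSystem_dual555`), and
`(symHecke a)⁻¹ * z = dualHecke a` (`sym_inv_mul_scal555`).  Hence for a function `φ` with
`φ (g z) = φ g`: `∑_a φ (g (symHecke a)⁻¹) = ∑_a φ (g dualHecke a)` is again a Hecke sum: the
Hecke operator `T_v` is self-adjoint on functions with trivial central character.
-/

set_option autoImplicit false

open IsDedekindDomain NumberField IsDedekindDomain.HeightOneSpectrum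
open Fermat.Agent.LT.H556.A0

noncomputable section

namespace Fermat.Agent.LT.T7.H555

open Fermat.Agent.LT.H129

section Generic

variable {F : Type*} [Field F]

theorem symdet555 {π : F} (hπ : π ≠ 0) (r : F) : (r ^ 2 + π) * 1 - r * r ≠ 0 := by
  have e : (r ^ 2 + π) * 1 - r * r = π := by ring
  rw [e]; exact hπ

theorem dualdet555 {π : F} (hπ : π ≠ 0) (r : F) : 1 * (r ^ 2 + π) - -r * -r ≠ 0 := by
  have e : 1 * (r ^ 2 + π) - -r * -r = π := by ring
  rw [e]; exact hπ

theorem lowdet555 {π : F} (hπ : π ≠ 0) : (1 : F) * π - 0 * 0 ≠ 0 := by simpa using hπ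

theorem dlowdet555 {π : F} (hπ : π ≠ 0) : π * (1 : F) - 0 * 0 ≠ 0 := by simpa using hπ

theorem scaldet555 {π : F} (hπ : π ≠ 0) : π * π - 0 * 0 ≠ 0 := by simpa using hπ

/-- `[[r² + π, r], [r, 1]]`. -/
def symM555 (π : F) (hπ : π ≠ 0) (r : F) : GL (Fin 2) F :=
  mkGL129 (r ^ 2 + π) r r 1 (symdet555 hπ r)

/-- `[[1, -r], [-r, r² + π]]`. -/
def dualM555 (π : F) (hπ : π ≠ 0) (r : F) : GL (Fin 2) F :=
  mkGL129 1 (-r) (-r) (r ^ 2 + π) (dualdet555 hπ r)

/-- `[[1, 0], [0, π]]`. -/
def lowM555 (π : F) (hπ : π ≠ 0) : GL (Fin 2) F := mkGL129 1 0 0 π (lowdet555 hπ)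

/-- `[[π, 0], [0, 1]]`. -/
def dlowM555 (π : F) (hπ : π ≠ 0) : GL (Fin 2) F := mkGL129 π 0 0 1 (dlowdet555 hπ)

/-- `[[π, 0], [0, π]]`. -/
def scalM555 (π : F) (hπ : π ≠ 0) : GL (Fin 2) F := mkGL129 π 0 0 π (scaldet555 hπ)

theorem symM_mul_dualM555 {π : F} (hπ : π ≠ 0) (r : F) :
    symM555 π hπ r * dualM555 π hπ r = scalM555 π hπ := by
  apply ext_mat129
  rw [Matrix.GeneralLinearGroup.coe_mul]
  simp only [symM555, dualM555, scalM555, coe_mkGL129, Matrix.mul_fin_two]
  congr 1
  ext i j
  fin_cases i <;> fin_cases j <;> simp <;> ring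

theorem lowM_mul_dlowM555 {π : F} (hπ : π ≠ 0) :
    lowM555 π hπ * dlowM555 π hπ = scalM555 π hπ := by
  apply ext_mat129
  rw [Matrix.GeneralLinearGroup.coe_mul]
  simp only [lowM555, dlowM555, scalM555, coe_mkGL129, Matrix.mul_fin_two]
  congr 1
  ext i j
  fin_cases i <;> fin_cases j <;> simp

theorem sym_inv_mul_sym555 {π : F} (hπ : π ≠ 0) (r r' : F) :
    (((symM555 π hπ r)⁻¹ * symM555 π hπ r' : GL (Fin 2) F) : Matrix (Fin 2) (Fin 2) F) 0 1
      = (r' - r) / π := by
  rw [inv_mul_apply129]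
  simp only [symM555, coe_mkGL129, Matrix.adjugate_fin_two_of, Matrix.det_fin_two_of,
    Matrix.mul_apply, Fin.sum_univ_two, Matrix.of_apply, Matrix.cons_val', Matrix.cons_val_zero,
    Matrix.cons_val_one, Matrix.cons_val_fin_one]
  congr 1 <;> ring

theorem sym_inv_mul_low555 {π : F} (hπ : π ≠ 0) (r : F) :
    (((symM555 π hπ r)⁻¹ * lowM555 π hπ : GL (Fin 2) F) : Matrix (Fin 2) (Fin 2) F) 0 0
      = π⁻¹ := by
  rw [inv_mul_apply129]
  simp only [symM555, lowM555, coe_mkGL129, Matrix.adjugate_fin_two_of, Matrix.det_fin_two_of,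
    Matrix.mul_apply, Fin.sum_univ_two, Matrix.of_apply, Matrix.cons_val', Matrix.cons_val_zero,
    Matrix.cons_val_one, Matrix.cons_val_fin_one]
  rw [← one_div]
  congr 1 <;> ring

theorem low_inv_mul_sym555 {π : F} (hπ : π ≠ 0) (r : F) :
    (((lowM555 π hπ)⁻¹ * symM555 π hπ r : GL (Fin 2) F) : Matrix (Fin 2) (Fin 2) F) 1 1
      = π⁻¹ := by
  rw [inv_mul_apply129]
  simp only [symM555, lowM555, coe_mkGL129, Matrix.adjugate_fin_two_of, Matrix.det_fin_two_of,
    Matrix.mul_apply, Fin.sum_univ_two, Matrix.of_apply, Matrix.cons_val', Matrix.cons_val_zero,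
    Matrix.cons_val_one, Matrix.cons_val_fin_one]
  rw [← one_div]
  congr 1 <;> ring

theorem dual_inv_mul_dual555 {π : F} (hπ : π ≠ 0) (r r' : F) :
    (((dualM555 π hπ r)⁻¹ * dualM555 π hπ r' : GL (Fin 2) F) : Matrix (Fin 2) (Fin 2) F) 1 0
      = (r - r') / π := by
  rw [inv_mul_apply129]
  simp only [dualM555, coe_mkGL129, Matrix.adjugate_fin_two_of, Matrix.det_fin_two_of,
    Matrix.mul_apply, Fin.sum_univ_two, Matrix.of_apply, Matrix.cons_val', Matrix.cons_val_zero,
    Matrix.cons_val_one, Matrix.cons_val_fin_one]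
  congr 1 <;> ring

theorem dual_inv_mul_dlow555 {π : F} (hπ : π ≠ 0) (r : F) :
    (((dualM555 π hπ r)⁻¹ * dlowM555 π hπ : GL (Fin 2) F) : Matrix (Fin 2) (Fin 2) F) 1 1
      = π⁻¹ := by
  rw [inv_mul_apply129]
  simp only [dualM555, dlowM555, coe_mkGL129, Matrix.adjugate_fin_two_of, Matrix.det_fin_two_of,
    Matrix.mul_apply, Fin.sum_univ_two, Matrix.of_apply, Matrix.cons_val', Matrix.cons_val_zero,
    Matrix.cons_val_one, Matrix.cons_val_fin_one]
  rw [← one_div]
  congr 1 <;> ring

theorem dlow_inv_mul_dual555 {π : F} (hπ : π ≠ 0) (r : F) :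
    (((dlowM555 π hπ)⁻¹ * dualM555 π hπ r : GL (Fin 2) F) : Matrix (Fin 2) (Fin 2) F) 0 0
      = π⁻¹ := by
  rw [inv_mul_apply129]
  simp only [dualM555, dlowM555, coe_mkGL129, Matrix.adjugate_fin_two_of, Matrix.det_fin_two_of,
    Matrix.mul_apply, Fin.sum_univ_two, Matrix.of_apply, Matrix.cons_val', Matrix.cons_val_zero,
    Matrix.cons_val_one, Matrix.cons_val_fin_one]
  rw [← one_div]
  congr 1 <;> ring

end Generic

variable {K : Type} [Field K] [NumberField K] (v : HeightOneSpectrum (𝓞 K))

/-- The symmetric Hecke coset representatives, indexed by `Option (𝓞 K ⧸ v)`. -/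
def symHecke555 (π : v.adicCompletion K) (hπ : π ≠ 0) : Option (𝓞 K ⧸ v.asIdeal) → G K
  | some c => locFin129 v (symM555 π hπ (rep129 v c))
  | none => locFin129 v (lowM555 π hπ)

/-- The dual system `(symHecke a)⁻¹ z`. -/
def dualHecke555 (π : v.adicCompletion K) (hπ : π ≠ 0) : Option (𝓞 K ⧸ v.asIdeal) → G K
  | some c => locFin129 v (dualM555 π hπ (rep129 v c))
  | none => locFin129 v (dlowM555 π hπ)

/-- The scalar uniformiser `z`. -/
def scalU555 (π : v.adicCompletion K) (hπ : π ≠ 0) : G K := locFin129 v (scalM555 π hπ)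

theorem isScalarUniformizerAt_scalU555 {π : v.adicCompletion K}
    (hπ : Valued.v π = WithZero.exp (-1 : ℤ)) :
    IsScalarUniformizerAt v (scalU555 v π (unif_ne_zero129 v hπ)) := by
  refine ⟨isLocalAtFin_locFin129 v _, π, hπ, ?_⟩
  rw [scalU555, finComp_locFin129, scalM555, coe_mkGL129]
  ext i j
  fin_cases i <;> fin_cases j <;> simp

/-- `(symHecke a)⁻¹ * z = dualHecke a`. -/
theorem sym_inv_mul_scal555 (π : v.adicCompletion K) (hπ : π ≠ 0)
    (a : Option (𝓞 K ⧸ v.asIdeal)) :
    (symHecke555 v π hπ a)⁻¹ * scalU555 v π hπ = dualHecke555 v π hπ a := by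
  rw [inv_mul_eq_iff_eq_mul]
  cases a with
  | none =>
    simp only [symHecke555, dualHecke555, scalU555]
    rw [← map_mul, lowM_mul_dlowM555]
  | some c =>
    simp only [symHecke555, dualHecke555, scalU555]
    rw [← map_mul, symM_mul_dualM555]

/-- A family of integral matrices of determinant a uniformiser, pairwise inequivalent modulo
`GL₂(𝒪_v)` on the right, gives a Hecke coset system. -/
theorem isHeckeCosetSystem_of_family555
    (f : Option (𝓞 K ⧸ v.asIdeal) → GL (Fin 2) (v.adicCompletion K))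
    (hint : ∀ a, IsInt129 (v.adicCompletionIntegers K) (f a))
    (hdet : ∀ a, Valued.v ((f a : Matrix (Fin 2) (Fin 2) (v.adicCompletion K)).det)
      = WithZero.exp (-1 : ℤ))
    (hne : ∀ a b, a ≠ b → ¬ IsInt129 (v.adicCompletionIntegers K) ((f a)⁻¹ * f b)) :
    ∃ H : Finset (G K), IsHeckeCosetSystem v H ∧
      ∀ (M : Type) [AddCommMonoid M] (ψ : G K → M),
        ∑ h ∈ H, ψ h = ∑ᶠ a : Option (𝓞 K ⧸ v.asIdeal), ψ (locFin129 v (f a)) := by
  classical
  have hfin : Finite (𝓞 K ⧸ v.asIdeal) := by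
    apply Nat.finite_of_card_ne_zero
    rw [← Submodule.cardQuot_apply, ← Ideal.absNorm_apply]
    exact ne_of_gt (lt_trans Nat.zero_lt_one (NumberField.HeightOneSpectrum.one_lt_absNorm v))
  have hfint : Fintype (𝓞 K ⧸ v.asIdeal) := Fintype.ofFinite _
  have hnotint : ∀ a b, a ≠ b → ¬ IsIntegralAt v ((locFin129 v (f a))⁻¹ * locFin129 v (f b)) := by
    intro a b hab h
    rw [← isInt129_finCompHom_iff, map_mul, map_inv, finCompHom129_locFin129,
      finCompHom129_locFin129] at h
    exact hne a b hab h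
  have hinj : Function.Injective (fun a => locFin129 v (f a)) := by
    intro a b hab
    by_contra hne'
    apply hnotint a b hne'
    simp only at hab
    rw [hab, inv_mul_cancel]
    intro i j
    have : finComp v (1 : G K) = 1 := by
      rw [← coe_finCompHom129, map_one]; rfl
    rw [this]
    by_cases hij : i = j
    · subst hij; simp
    · simp [hij]
  refine ⟨Finset.univ.image (fun a => locFin129 v (f a)), ⟨?_, ?_, ?_⟩, ?_⟩
  · rw [Finset.card_image_of_injective _ hinj, Finset.card_univ, Fintype.card_option,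
      Ideal.absNorm_apply, Submodule.cardQuot_apply, Nat.card_eq_fintype_card]
  · intro h hh
    obtain ⟨a, -, rfl⟩ := Finset.mem_image.mp hh
    refine ⟨isLocalAtFin_locFin129 v _, ?_, ?_⟩
    · rw [← isInt129_finCompHom_iff, finCompHom129_locFin129]
      exact hint a
    · rw [finComp_locFin129]
      exact hdet a
  · intro h hh h' hh' hne'
    obtain ⟨a, -, rfl⟩ := Finset.mem_image.mp hh
    obtain ⟨b, -, rfl⟩ := Finset.mem_image.mp hh'
    exact hnotint a b (fun e => hne' (by rw [e]))
  · intro M _ ψ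
    rw [Finset.sum_image (fun a _ b _ hab => hinj hab), finsum_eq_sum_of_fintype]

section Systems

variable {π : v.adicCompletion K} (hπ : Valued.v π = WithZero.exp (-1 : ℤ))

include hπ

theorem unif_inv_not_mem555 : π⁻¹ ∉ v.adicCompletionIntegers K := unif_inv_not_mem129 v hπ

theorem rep_sub_div_not_mem555 {c c' : 𝓞 K ⧸ v.asIdeal} (h : c ≠ c') :
    (rep129 v c' - rep129 v c) / π ∉ v.adicCompletionIntegers K := by
  rw [mem_adicCompletionIntegers, map_div₀, valued_rep129_sub v h, hπ, one_div,
    ← WithZero.exp_neg, ← WithZero.exp_zero, WithZero.exp_le_exp]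
  norm_num

/-- The matrices of the symmetric system. -/
def symFam555 : Option (𝓞 K ⧸ v.asIdeal) → GL (Fin 2) (v.adicCompletion K)
  | some c => symM555 π (unif_ne_zero129 v hπ) (rep129 v c)
  | none => lowM555 π (unif_ne_zero129 v hπ)

/-- The matrices of the dual system. -/
def dualFam555 : Option (𝓞 K ⧸ v.asIdeal) → GL (Fin 2) (v.adicCompletion K)
  | some c => dualM555 π (unif_ne_zero129 v hπ) (rep129 v c)
  | none => dlowM555 π (unif_ne_zero129 v hπ)

theorem locFin_symFam555 (a : Option (𝓞 K ⧸ v.asIdeal)) :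
    locFin129 v (symFam555 v hπ a) = symHecke555 v π (unif_ne_zero129 v hπ) a := by
  cases a <;> rfl

theorem locFin_dualFam555 (a : Option (𝓞 K ⧸ v.asIdeal)) :
    locFin129 v (dualFam555 v hπ a) = dualHecke555 v π (unif_ne_zero129 v hπ) a := by
  cases a <;> rfl

theorem symFam_int555 (a : Option (𝓞 K ⧸ v.asIdeal)) :
    IsInt129 (v.adicCompletionIntegers K) (symFam555 v hπ a) := by
  have h1 : (1 : v.adicCompletion K) ∈ v.adicCompletionIntegers K :=
    (v.adicCompletionIntegers K).one_mem
  have h0 : (0 : v.adicCompletion K) ∈ v.adicCompletionIntegers K :=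
    (v.adicCompletionIntegers K).zero_mem
  cases a with
  | none =>
    simp only [symFam555, lowM555]
    exact isInt129_mkGL _ h1 h0 h0 (unif_mem129 v hπ)
  | some c =>
    simp only [symFam555, symM555]
    refine isInt129_mkGL _ ?_ (rep129_mem v c) (rep129_mem v c) h1
    exact (v.adicCompletionIntegers K).add_mem _ _
      (pow_mem (rep129_mem v c) 2) (unif_mem129 v hπ)

theorem dualFam_int555 (a : Option (𝓞 K ⧸ v.asIdeal)) :
    IsInt129 (v.adicCompletionIntegers K) (dualFam555 v hπ a) := by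
  have h1 : (1 : v.adicCompletion K) ∈ v.adicCompletionIntegers K :=
    (v.adicCompletionIntegers K).one_mem
  have h0 : (0 : v.adicCompletion K) ∈ v.adicCompletionIntegers K :=
    (v.adicCompletionIntegers K).zero_mem
  cases a with
  | none =>
    simp only [dualFam555, dlowM555]
    exact isInt129_mkGL _ (unif_mem129 v hπ) h0 h0 h1
  | some c =>
    simp only [dualFam555, dualM555]
    refine isInt129_mkGL _ h1 ((v.adicCompletionIntegers K).neg_mem _ (rep129_mem v c))
      ((v.adicCompletionIntegers K).neg_mem _ (rep129_mem v c)) ?_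
    exact (v.adicCompletionIntegers K).add_mem _ _
      (pow_mem (rep129_mem v c) 2) (unif_mem129 v hπ)

theorem symFam_det555 (a : Option (𝓞 K ⧸ v.asIdeal)) :
    Valued.v ((symFam555 v hπ a : Matrix (Fin 2) (Fin 2) (v.adicCompletion K)).det)
      = WithZero.exp (-1 : ℤ) := by
  cases a with
  | none =>
    simp only [symFam555, lowM555, coe_mkGL129, Matrix.det_fin_two_of]
    simpa using hπ
  | some c =>
    simp only [symFam555, symM555, coe_mkGL129, Matrix.det_fin_two_of]
    have e : (rep129 v c ^ 2 + π) * 1 - rep129 v c * rep129 v c = π := by ring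
    rw [e]; exact hπ

theorem dualFam_det555 (a : Option (𝓞 K ⧸ v.asIdeal)) :
    Valued.v ((dualFam555 v hπ a : Matrix (Fin 2) (Fin 2) (v.adicCompletion K)).det)
      = WithZero.exp (-1 : ℤ) := by
  cases a with
  | none =>
    simp only [dualFam555, dlowM555, coe_mkGL129, Matrix.det_fin_two_of]
    simpa using hπ
  | some c =>
    simp only [dualFam555, dualM555, coe_mkGL129, Matrix.det_fin_two_of]
    have e : 1 * (rep129 v c ^ 2 + π) - -rep129 v c * -rep129 v c = π := by ring
    rw [e]; exact hπ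

theorem symFam_ne555 (a b : Option (𝓞 K ⧸ v.asIdeal)) (hab : a ≠ b) :
    ¬ IsInt129 (v.adicCompletionIntegers K) ((symFam555 v hπ a)⁻¹ * symFam555 v hπ b) := by
  intro hint
  cases a with
  | none =>
    cases b with
    | none => exact hab rfl
    | some c =>
      have := hint 1 1
      simp only [symFam555] at this
      rw [low_inv_mul_sym555] at this
      exact unif_inv_not_mem555 v hπ this
  | some c =>
    cases b with
    | none =>
      have := hint 0 0
      simp only [symFam555] at this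
      rw [sym_inv_mul_low555] at this
      exact unif_inv_not_mem555 v hπ this
    | some c' =>
      have hcc : c ≠ c' := fun h => hab (by rw [h])
      have := hint 0 1
      simp only [symFam555] at this
      rw [sym_inv_mul_sym555] at this
      exact rep_sub_div_not_mem555 v hπ hcc this

theorem dualFam_ne555 (a b : Option (𝓞 K ⧸ v.asIdeal)) (hab : a ≠ b) :
    ¬ IsInt129 (v.adicCompletionIntegers K) ((dualFam555 v hπ a)⁻¹ * dualFam555 v hπ b) := by
  intro hint
  cases a with
  | none =>
    cases b with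
    | none => exact hab rfl
    | some c =>
      have := hint 0 0
      simp only [dualFam555] at this
      rw [dlow_inv_mul_dual555] at this
      exact unif_inv_not_mem555 v hπ this
  | some c =>
    cases b with
    | none =>
      have := hint 1 1
      simp only [dualFam555] at this
      rw [dual_inv_mul_dlow555] at this
      exact unif_inv_not_mem555 v hπ this
    | some c' =>
      have hcc : c' ≠ c := fun h => hab (by rw [h])
      have := hint 1 0
      simp only [dualFam555] at this
      rw [dual_inv_mul_dual555] at this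
      exact rep_sub_div_not_mem555 v hπ hcc this

/-- **The symmetric system and its dual are Hecke coset systems**, with the Hecke sums written
as sums over the index set. -/
theorem exists_sym_dual555 :
    ∃ H H' : Finset (G K), IsHeckeCosetSystem v H ∧ IsHeckeCosetSystem v H' ∧
      (∀ (M : Type) [AddCommMonoid M] (ψ : G K → M),
        ∑ h ∈ H, ψ h = ∑ᶠ a : Option (𝓞 K ⧸ v.asIdeal),
          ψ (symHecke555 v π (unif_ne_zero129 v hπ) a)) ∧
      ∀ (M : Type) [AddCommMonoid M] (ψ : G K → M),
        ∑ h ∈ H', ψ h = ∑ᶠ a : Option (𝓞 K ⧸ v.asIdeal),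
          ψ (dualHecke555 v π (unif_ne_zero129 v hπ) a) := by
  obtain ⟨H, hH, hsum⟩ := isHeckeCosetSystem_of_family555 v (symFam555 v hπ)
    (symFam_int555 v hπ) (symFam_det555 v hπ) (symFam_ne555 v hπ)
  obtain ⟨H', hH', hsum'⟩ := isHeckeCosetSystem_of_family555 v (dualFam555 v hπ)
    (dualFam_int555 v hπ) (dualFam_det555 v hπ) (dualFam_ne555 v hπ)
  refine ⟨H, H', hH, hH', ?_, ?_⟩
  · intro M _ ψ
    rw [hsum M ψ]
    exact finsum_congr fun a => by rw [locFin_symFam555]
  · intro M _ ψ
    rw [hsum' M ψ]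
    exact finsum_congr fun a => by rw [locFin_dualFam555]

end Systems

end Fermat.Agent.LT.T7.H555
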