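import Mathlib
import Fermat.Agent.LT.T7.H555.SymHecke
import Fermat.Agent.LT.T7.H555.FrameShift
import Fermat.Agent.LT.T7.H62.RigidAut

/-!
# Row LT, tower T7, leaf T7.14.4: `OrthC` (Hecke orthogonality on the frame) (helper555)

OFF-MAIN.  Spec: helper62 `LT/T7/H62/RigidAut.lean` (`Rigid.OrthC K`), byte-identical copy.

* `hecke_selfadj555`: for `φ, φ'` bounded continuous, left invariant under `GL₂(K)`, right
  invariant under the positive scalars at the infinite places, Hecke eigenfunctions at `v` with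
  eigenvalues `(a, 1)`, `(a', 1)`: `a ⟨φ, φ'⟩ = conj a' ⟨φ, φ'⟩` on every frame.
  (Symmetric coset system `h_x`, `h_x⁻¹ z = h'_x` is again a coset system, `z` the scalar
  uniformiser; translation on the frame: `FrameShift.lean`.)
* `orthC555 K : Rigid.OrthC K` — UNCONDITIONAL.  (`a'` is real if `φ' ≠ 0`, by
  helper250's `innerD_ne_zero250n`; the hypothesis `TotCplx K` is not used.)
-/

set_option autoImplicit false

open IsDedekindDomain NumberField MeasureTheory AutomorphicForm
open Fermat.Agent.LT.H556.A0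
open Fermat.Agent.LT
open scoped ComplexConjugate

noncomputable section

namespace Fermat.Agent.LT.T7.H555

open Fermat.Agent.LT.T7.H250 Fermat.Agent.LT.H129

attribute [local instance] Fermat.Agent.LT.T5.instMeasurableSpaceG

variable {K : Type} [Field K] [NumberField K]

/-- **Self-adjointness of the Hecke operator at `v`** on the frame. -/
theorem hecke_selfadj555 {μ : Measure (G K)} {F : Set (G K)} (hF : T5.IsFrame μ F)
    {φ φ' : G K → ℂ} (hc : Continuous φ) (hc' : Continuous φ')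
    (hb : ∃ C : ℝ, ∀ g : G K, ‖φ g‖ ≤ C) (hb' : ∃ C : ℝ, ∀ g : G K, ‖φ' g‖ ≤ C)
    (hl : ∀ (γ : GL (Fin 2) K) (g : G K), φ (T5.ratG γ * g) = φ g)
    (hl' : ∀ (γ : GL (Fin 2) K) (g : G K), φ' (T5.ratG γ * g) = φ' g)
    (hs : ∀ (w : InfinitePlace K) (z : G K), IsArchPosScalar w z → ∀ g : G K, φ (g * z) = φ g)
    (hs' : ∀ (w : InfinitePlace K) (z : G K), IsArchPosScalar w z →
      ∀ g : G K, φ' (g * z) = φ' g)
    (v : HeightOneSpectrum (𝓞 K)) (a a' : ℂ)
    (hh : IsHeckeEigenAt φ v a 1) (hh' : IsHeckeEigenAt φ' v a' 1) :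
    a * T5.innerD μ F φ φ' = conj a' * T5.innerD μ F φ φ' := by
  classical
  obtain ⟨π, hπ⟩ := exists_unif129 v
  have hπ0 := unif_ne_zero129 v hπ
  obtain ⟨H, H', hH, hH', hsum, hsum'⟩ := exists_sym_dual555 v hπ
  have hfin : Finite (𝓞 K ⧸ v.asIdeal) := by
    apply Nat.finite_of_card_ne_zero
    rw [← Submodule.cardQuot_apply, ← Ideal.absNorm_apply]
    exact ne_of_gt (lt_trans Nat.zero_lt_one (NumberField.HeightOneSpectrum.one_lt_absNorm v))
  have hfint : Fintype (𝓞 K ⧸ v.asIdeal) := Fintype.ofFinite _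
  set q : ℂ := ((Real.sqrt (Ideal.absNorm v.asIdeal : ℝ) : ℝ) : ℂ) with hq
  have hq0 : q ≠ 0 := by
    rw [hq, Ne, Complex.ofReal_eq_zero, Real.sqrt_eq_zero', not_le]
    have := NumberField.HeightOneSpectrum.one_lt_absNorm v
    have h1 : (1 : ℝ) < (Ideal.absNorm v.asIdeal : ℝ) := by exact_mod_cast this
    linarith
  have hqc : conj q = q := by rw [hq, Complex.conj_ofReal]
  -- translation of each term
  have htr : ∀ x : Option (𝓞 K ⧸ v.asIdeal),
      ∫ g in F, φ (g * symHecke555 v π hπ0 x) * conj (φ' g) ∂μ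
        = ∫ g in F, φ g * conj (φ' (g * dualHecke555 v π hπ0 x)) ∂μ := by
    intro x
    rw [inner_translate555 hF hc hc' hb hb' hl hl' hs hs']
    congr 1
    funext g
    have := hh'.2 _ (isScalarUniformizerAt_scalU555 v hπ) (g * (symHecke555 v π hπ0 x)⁻¹)
    rw [one_mul, mul_assoc, sym_inv_mul_scal555] at this
    rw [this]
  obtain ⟨C, hC⟩ := hb
  obtain ⟨C', hC'⟩ := hb'
  have hint1 : ∀ x : Option (𝓞 K ⧸ v.asIdeal),
      Integrable (fun g => φ (g * symHecke555 v π hπ0 x) * conj (φ' g)) (μ.restrict F) := by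
    intro x
    refine integrableOn_frame555 hF ?_ ⟨C * C', fun g => ?_⟩
    · exact (hc.comp (continuous_id.mul continuous_const)).mul
        (Complex.continuous_conj.comp hc')
    · rw [norm_mul, RCLike.norm_conj]
      exact mul_le_mul (hC _) (hC' _) (norm_nonneg _) ((norm_nonneg _).trans (hC g))
  have hint2 : ∀ x : Option (𝓞 K ⧸ v.asIdeal),
      Integrable (fun g => φ g * conj (φ' (g * dualHecke555 v π hπ0 x))) (μ.restrict F) := by
    intro x
    refine integrableOn_frame555 hF ?_ ⟨C * C', fun g => ?_⟩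
    · exact hc.mul (Complex.continuous_conj.comp
        (hc'.comp (continuous_id.mul continuous_const)))
    · rw [norm_mul, RCLike.norm_conj]
      exact mul_le_mul (hC _) (hC' _) (norm_nonneg _) ((norm_nonneg _).trans (hC g))
  have e1 : ∫ g in F, (q * a * φ g) * conj (φ' g) ∂μ
      = ∑ x : Option (𝓞 K ⧸ v.asIdeal),
          ∫ g in F, φ (g * symHecke555 v π hπ0 x) * conj (φ' g) ∂μ := by
    rw [← integral_finsetSum _ (fun x _ => hint1 x)]
    congr 1
    funext g
    rw [← hh.1 H hH g, hsum ℂ (fun h => φ (g * h)), finsum_eq_sum_of_fintype, Finset.sum_mul]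
  have e2 : ∫ g in F, φ g * conj (q * a' * φ' g) ∂μ
      = ∑ x : Option (𝓞 K ⧸ v.asIdeal),
          ∫ g in F, φ g * conj (φ' (g * dualHecke555 v π hπ0 x)) ∂μ := by
    rw [← integral_finsetSum _ (fun x _ => hint2 x)]
    congr 1
    funext g
    rw [← hh'.1 H' hH' g, hsum' ℂ (fun h => φ' (g * h)), finsum_eq_sum_of_fintype, map_sum,
      Finset.mul_sum]
  have e3 : ∫ g in F, (q * a * φ g) * conj (φ' g) ∂μ = q * a * T5.innerD μ F φ φ' := by
    unfold T5.innerD
    rw [← integral_const_mul]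
    congr 1
    funext g
    ring
  have e4 : ∫ g in F, φ g * conj (q * a' * φ' g) ∂μ = q * conj a' * T5.innerD μ F φ φ' := by
    unfold T5.innerD
    rw [← integral_const_mul]
    congr 1
    funext g
    rw [map_mul, map_mul, hqc]
    ring
  have key : q * a * T5.innerD μ F φ φ' = q * conj a' * T5.innerD μ F φ φ' := by
    rw [← e3, ← e4, e1, e2]
    exact Finset.sum_congr rfl fun x _ => htr x
  rw [mul_assoc, mul_assoc] at key
  exact mul_left_cancel₀ hq0 key

/-- **LEAF T7.14.4 `OrthC`** (unconditional): `S`-forms of `π`, `π'` with `a_v ≠ a'_v` at some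
`v ∉ S` are orthogonal on every frame. -/
theorem orthC555 (K : Type) [Field K] [NumberField K] : Rigid.OrthC K := by
  intro _ μ F hF π π' S φ φ' hφ hφ' hv
  obtain ⟨v, hvS, hne⟩ := hv
  have h1 := hecke_selfadj555 hF hφ.cont hφ'.cont hφ.bdd hφ'.bdd hφ.left_inv hφ'.left_inv
    hφ.arch_scalar hφ'.arch_scalar v _ _ (hφ.hecke v hvS) (hφ'.hecke v hvS)
  by_cases hz : ∃ g, φ' g ≠ 0
  · have h2 := hecke_selfadj555 hF hφ'.cont hφ'.cont hφ'.bdd hφ'.bdd hφ'.left_inv hφ'.left_inv
      hφ'.arch_scalar hφ'.arch_scalar v _ _ (hφ'.hecke v hvS) (hφ'.hecke v hvS)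
    have hn : T5.innerD μ F φ' φ' ≠ 0 :=
      innerD_ne_zero250n hF hφ'.cont hφ'.bdd hφ'.left_inv hφ'.arch_scalar hz
    have hreal : conj (π'.a v) = π'.a v := (mul_right_cancel₀ hn h2).symm
    rw [hreal] at h1
    by_contra h0
    exact hne (mul_right_cancel₀ h0 h1)
  · have hz' : ∀ g, φ' g = 0 := fun g => by
      by_contra h
      exact hz ⟨g, h⟩
    unfold T5.innerD
    simp [hz']

/-- Type check against the frozen Prop of the spec. -/
example (K : Type) [Field K] [NumberField K] : Fermat.Agent.LT.T7.Rigid.OrthC K := orthC555 K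

end Fermat.Agent.LT.T7.H555
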