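import Mathlib
import Fermat.Agent.LT.T7.H724.CountMeas
import Fermat.Agent.LT.T7.H555.FrameShift

/-!
# Row LT, tower T7, ASSIST for T7.14.6a `FoldWhitC`, step (1): folding over `B(K) \ GL₂(K)`
(helper555)

OFF-MAIN.  On helper62 `RigidAut.lean` (`rowOf`, `rowNorm`, `cntSet`, `cnt`), helper724
`CountMeas.lean` (measurability of `{g | x ∈ cntSet 𝔪 Y g}`, countability of `ℙ¹(K)`), helper309
`AdNorm.lean` (product formula), helper250 `NormPos.lean`, byte-identical copies.

* `gamX555 x : GL₂(K)` : a matrix with bottom row `x.rep`, for `x ∈ ℙ¹(K)`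
  (a system of representatives of `B(K) \ GL₂(K)`).
* `foldSet555 𝔪 Y` : the set `E` of the `g` with `rowNorm(bottom row)² · Y ≤ ‖det g‖` and bottom
  row `(c, d)`, `c_v ∈ 𝔪 d_v` at the places `v ∣ 𝔪`:  `x ∈ cntSet 𝔪 Y g ↔ γ_x g ∈ E`
  (`mem_cntSet_iff555`).
* `foldDom555 F = ⋃ₓ γ_x F` : Borel, inside the slab, STRICT fundamental domain for the left action
  of `B(K)` on the slab (`measurableSet_foldDom555`, `foldDom_sub_slab555`,
  `foldDom_strict555`).
* `lintegral_fold555` : `∑ₓ ∫⁻_{F ∩ {x ∈ cntSet}} f dμ = ∫⁻_{foldDom F ∩ E} f dμ` for measurable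
  `f ≥ 0`, left invariant under `GL₂(K)`.
* `integral_fold555` : if `μ (foldDom F ∩ E) < ∞` then for `Φ` bounded measurable left invariant
  under `GL₂(K)`:  `∫_F Φ · cnt 𝔪 Y dμ = ∫_{foldDom F ∩ E} Φ dμ`, and `cntSet 𝔪 Y g` is finite for
  almost every `g ∈ F` (`ae_finite_cntSet555`).
-/

set_option autoImplicit false

open IsDedekindDomain NumberField MeasureTheory AutomorphicForm
open Fermat.Agent.LT.H556 Fermat.Agent.LT.H556.A0
open Fermat.Agent.LT
open scoped ComplexConjugate ENNReal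

noncomputable section

namespace Fermat.Agent.LT.T7.H555

open Fermat.Agent.LT.T7.H250 Fermat.Agent.LT.T7.Rigid Fermat.Agent.LT.T7.H724

attribute [local instance] Fermat.Agent.LT.T5.instMeasurableSpaceG

variable {K : Type} [Field K] [NumberField K]

/-! ## 1. Rows -/

/-- The bottom row of `g`. -/
def botRow555 (g : G K) : Fin 2 → Adl K := fun j => (g : Matrix (Fin 2) (Fin 2) (Adl K)) 1 j

/-- The set `E(𝔪, Y)`: height `≥ Y` and bottom row in `B(𝔸) K₀(𝔪)`. -/
def foldSet555 (𝔪 : Ideal (𝓞 K)) (Y : ℝ) : Set (G K) :=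
  {g | rowNorm (botRow555 g) ^ 2 * Y
        ≤ T5.adNorm (Matrix.det (g : Matrix (Fin 2) (Fin 2) (Adl K))) ∧
    ∀ v : HeightOneSpectrum (𝓞 K), v.asIdeal ∣ 𝔪 →
      ∃ t ∈ idealClosure 𝔪 v, (botRow555 g 0).2 v = t * (botRow555 g 1).2 v}

theorem ratG_apply555 (γ : GL (Fin 2) K) (i j : Fin 2) :
    ((T5.ratG γ : G K) : Matrix (Fin 2) (Fin 2) (Adl K)) i j
      = algebraMap K (Adl K) ((γ : Matrix (Fin 2) (Fin 2) K) i j) :=
  Matrix.GeneralLinearGroup.map_apply _ i j γ

/-- `(c, d) · g` is the bottom row of `γ g` if `(c, d)` is the bottom row of `γ`. -/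
theorem rowOf_eq_botRow555 (γ : GL (Fin 2) K) (x : Fin 2 → K)
    (hx : ∀ j, (γ : Matrix (Fin 2) (Fin 2) K) 1 j = x j) (g : G K) :
    rowOf x g = botRow555 (T5.ratG γ * g) := by
  funext j
  unfold rowOf botRow555
  rw [Units.val_mul, Matrix.mul_apply, Fin.sum_univ_two, ratG_apply555, ratG_apply555, hx, hx]

/-- The bottom row of `g` is `(0, 1) · g`. -/
theorem rowOf_std555 (g : G K) : rowOf ![0, 1] g = botRow555 g := by
  funext j
  unfold rowOf botRow555
  simp

/-- Product formula: left multiplication by `GL₂(K)` preserves the module of the determinant. -/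
theorem detN_ratG_mul555 (γ : GL (Fin 2) K) (g : G K) :
    detN250n (T5.ratG γ * g) = detN250n g := by
  rw [detN_mul555]
  have h1 : detN250n (T5.ratG γ) = 1 := by
    unfold detN250n
    have hdet : Matrix.det ((T5.ratG γ : G K) : Matrix (Fin 2) (Fin 2) (Adl K))
        = algebraMap K (Adl K) (Matrix.det (γ : Matrix (Fin 2) (Fin 2) K)) := by
      rw [Matrix.det_fin_two, Matrix.det_fin_two]
      simp only [ratG_apply555, map_sub, map_mul]
    rw [hdet]
    have hne : Matrix.det (γ : Matrix (Fin 2) (Fin 2) K) ≠ 0 :=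
      (Matrix.GeneralLinearGroup.det γ).ne_zero
    exact Fermat.Agent.LT.T1.H309.adNorm_algebraMap309 K _ hne
  rw [h1, one_mul]

/-! ## 2. Representatives of `B(K) \ GL₂(K)` -/

open scoped Classical in
/-- The matrix `[[1, 0], [c, d]]` (or `[[0, 1], [c, 0]]` if `d = 0`) for `(c, d) = x.rep`. -/
def gamM555 (x : Projectivization K (Fin 2 → K)) : Matrix (Fin 2) (Fin 2) K :=
  if x.rep 1 = 0 then !![0, 1; x.rep 0, x.rep 1] else !![1, 0; x.rep 0, x.rep 1]

theorem gamM_row555 (x : Projectivization K (Fin 2 → K)) (j : Fin 2) :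
    gamM555 x 1 j = x.rep j := by
  unfold gamM555
  by_cases h : x.rep 1 = 0
  · rw [if_pos h]
    fin_cases j <;> simp
  · rw [if_neg h]
    fin_cases j <;> simp

theorem gamDet555 (x : Projectivization K (Fin 2 → K)) : (gamM555 x).det ≠ 0 := by
  unfold gamM555
  by_cases h : x.rep 1 = 0
  · rw [if_pos h, Matrix.det_fin_two_of]
    have h0 : x.rep 0 ≠ 0 := by
      intro h0
      apply x.rep_nonzero
      funext j
      fin_cases j
      · exact h0
      · exact h
    simpa using h0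
  · rw [if_neg h, Matrix.det_fin_two_of]
    simpa using h

/-- A matrix of `GL₂(K)` with bottom row `x.rep`. -/
def gamX555 (x : Projectivization K (Fin 2 → K)) : GL (Fin 2) K :=
  Matrix.GeneralLinearGroup.mkOfDetNeZero (gamM555 x) (gamDet555 x)

theorem gamX_row555 (x : Projectivization K (Fin 2 → K)) (j : Fin 2) :
    (gamX555 x : Matrix (Fin 2) (Fin 2) K) 1 j = x.rep j :=
  gamM_row555 x j

theorem gamX_injective555 : Function.Injective (gamX555 (K := K)) := by
  intro x y h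
  have hr : x.rep = y.rep := by
    funext j
    rw [← gamX_row555 x j, ← gamX_row555 y j, h]
  rw [← x.mk_rep, ← y.mk_rep]
  congr 1

/-- **The counting set in terms of the set `E`.** -/
theorem mem_cntSet_iff555 (𝔪 : Ideal (𝓞 K)) (Y : ℝ) (g : G K)
    (x : Projectivization K (Fin 2 → K)) :
    x ∈ cntSet 𝔪 Y g ↔ T5.ratG (gamX555 x) * g ∈ foldSet555 𝔪 Y := by
  have hrow := rowOf_eq_botRow555 (gamX555 x) x.rep (gamX_row555 x) g
  have hdet := detN_ratG_mul555 (gamX555 x) g
  unfold detN250n at hdet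
  unfold cntSet foldSet555
  simp only [Set.mem_ofPred_eq]
  rw [hrow, hdet]

/-! ## 3. The fundamental domain of `B(K)` in the slab -/

/-- The translate `γ_x F`. -/
def foldPiece555 (F : Set (G K)) (x : Projectivization K (Fin 2 → K)) : Set (G K) :=
  (fun g : G K => T5.ratG (gamX555 x) * g) '' F

/-- The fundamental domain `⋃ₓ γ_x F` of `B(K)`. -/
def foldDom555 (F : Set (G K)) : Set (G K) := ⋃ x, foldPiece555 F x

theorem mem_foldPiece_iff555 (F : Set (G K)) (x : Projectivization K (Fin 2 → K)) (g : G K) :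
    g ∈ foldPiece555 F x ↔ (T5.ratG (gamX555 x))⁻¹ * g ∈ F := by
  unfold foldPiece555
  constructor
  · rintro ⟨f, hf, rfl⟩
    rwa [inv_mul_cancel_left]
  · intro h
    exact ⟨_, h, mul_inv_cancel_left _ _⟩

theorem ratG_mul_mem_foldPiece_iff555 (F : Set (G K)) (x : Projectivization K (Fin 2 → K))
    (g : G K) : T5.ratG (gamX555 x) * g ∈ foldPiece555 F x ↔ g ∈ F := by
  rw [mem_foldPiece_iff555, inv_mul_cancel_left]

theorem measurableSet_foldPiece555 {F : Set (G K)} (hF : MeasurableSet F)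
    (x : Projectivization K (Fin 2 → K)) : MeasurableSet (foldPiece555 F x) := by
  have hbs : BorelSpace (G K) := ⟨rfl⟩
  have hc : Continuous fun g : G K => (T5.ratG (gamX555 x))⁻¹ * g :=
    continuous_const.mul continuous_id
  have : foldPiece555 F x = (fun g : G K => (T5.ratG (gamX555 x))⁻¹ * g) ⁻¹' F := by
    ext g
    exact mem_foldPiece_iff555 F x g
  rw [this]
  exact hc.measurable hF

theorem measurableSet_foldDom555 {F : Set (G K)} (hF : MeasurableSet F) :
    MeasurableSet (foldDom555 F) := by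
  have : Countable (Projectivization K (Fin 2 → K)) := countable_proj724 K
  exact MeasurableSet.iUnion fun x => measurableSet_foldPiece555 hF x

theorem foldPiece_disjoint555 {μ : Measure (G K)} {F : Set (G K)} (hF : T5.IsFrame μ F) :
    Pairwise (Function.onFun Disjoint (foldPiece555 F)) := by
  intro x y hne
  rw [Function.onFun, Set.disjoint_left]
  intro g hgx hgy
  apply hne
  rw [mem_foldPiece_iff555] at hgx hgy
  -- `f = γ_x⁻¹ g ∈ F` and `γ_y⁻¹ γ_x f = γ_y⁻¹ g ∈ F`
  set f : G K := (T5.ratG (gamX555 x))⁻¹ * g with hf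
  have h1 : T5.ratG 1 * f ∈ F := by rw [map_one, one_mul]; exact hgx
  have h2 : T5.ratG ((gamX555 y)⁻¹ * gamX555 x) * f ∈ F := by
    rw [map_mul, map_inv, hf, mul_assoc, mul_inv_cancel_left]
    exact hgy
  have huniq := (hF.strict f (hF.sub hgx)).unique h1 h2
  have hxy : gamX555 x = gamX555 y := by
    have := congrArg (fun t => gamX555 y * t) huniq
    simp only [mul_one, mul_inv_cancel_left] at this
    exact this.symm
  exact gamX_injective555 hxy

theorem foldDom_sub_slab555 {μ : Measure (G K)} {F : Set (G K)} (hF : T5.IsFrame μ F) :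
    foldDom555 F ⊆ T5.slab K := by
  intro g hg
  obtain ⟨x, hx⟩ := Set.mem_iUnion.mp hg
  obtain ⟨f, hf, rfl⟩ := hx
  have := hF.sub hf
  rw [mem_slab_iff250n] at this ⊢
  rw [detN_ratG_mul555]
  exact this

theorem measurableSet_foldSet555 (𝔪 : Ideal (𝓞 K)) (Y : ℝ) :
    MeasurableSet (foldSet555 (K := K) 𝔪 Y) := by
  have : Countable (HeightOneSpectrum (𝓞 K)) := countable_places724 K
  have h : foldSet555 (K := K) 𝔪 Y
      = {g : G K | rowNorm (rowOf ![0, 1] g) ^ 2 * Y
          ≤ T5.adNorm (Matrix.det (g : Matrix (Fin 2) (Fin 2) (Adl K)))}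
        ∩ ⋂ v : HeightOneSpectrum (𝓞 K),
          {g : G K | v.asIdeal ∣ 𝔪 → ∃ t ∈ idealClosure 𝔪 v,
            (rowOf ![0, 1] g 0).2 v = t * (rowOf ![0, 1] g 1).2 v} := by
    ext g
    simp only [foldSet555, rowOf_std555, Set.mem_ofPred_eq, Set.mem_inter_iff, Set.mem_iInter]
  rw [h]
  refine MeasurableSet.inter ?_ (MeasurableSet.iInter fun v => ?_)
  · exact measurableSet_le (((measurable_rowNorm724 ![0, 1]).pow_const 2).mul_const Y)
      measurable_adNormDet724
  · by_cases hv : v.asIdeal ∣ 𝔪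
    · simp only [hv, forall_const]
      exact measurableSet_cong724 𝔪 ![0, 1] v
    · simp only [hv, IsEmpty.forall_iff, Set.ofPred_true]
      exact MeasurableSet.univ

theorem preimage_piece555 (F : Set (G K)) (𝔪 : Ideal (𝓞 K)) (Y : ℝ)
    (x : Projectivization K (Fin 2 → K)) :
    (fun g : G K => T5.ratG (gamX555 x) * g) ⁻¹' (foldPiece555 F x ∩ foldSet555 𝔪 Y)
      = F ∩ {g | x ∈ cntSet 𝔪 Y g} := by
  ext g
  simp only [Set.mem_preimage, Set.mem_inter_iff, Set.mem_ofPred_eq,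
    ratG_mul_mem_foldPiece_iff555, mem_cntSet_iff555]

theorem foldDom_inter555 (F : Set (G K)) (𝔪 : Ideal (𝓞 K)) (Y : ℝ) :
    foldDom555 F ∩ foldSet555 𝔪 Y = ⋃ x, (foldPiece555 F x ∩ foldSet555 𝔪 Y) := by
  unfold foldDom555
  rw [Set.iUnion_inter]

theorem foldPieceInter_disjoint555 {μ : Measure (G K)} {F : Set (G K)} (hF : T5.IsFrame μ F)
    (𝔪 : Ideal (𝓞 K)) (Y : ℝ) :
    Pairwise (Function.onFun Disjoint fun x => foldPiece555 F x ∩ foldSet555 𝔪 Y) := by
  intro x y hne
  exact (foldPiece_disjoint555 hF hne).mono Set.inter_subset_left Set.inter_subset_left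

/-! ## 4. The folding identities -/

theorem measurePreserving_ratG555 {μ : Measure (G K)} {F : Set (G K)} (hF : T5.IsFrame μ F)
    (γ : GL (Fin 2) K) : MeasurePreserving (fun g : G K => T5.ratG γ * g) μ μ := by
  have hbs : BorelSpace (G K) := ⟨rfl⟩
  have := hF.haar
  exact measurePreserving_mul_left μ _

theorem measurableEmbedding_ratG555 (γ : GL (Fin 2) K) :
    MeasurableEmbedding (fun g : G K => T5.ratG γ * g) := by
  have hbs : BorelSpace (G K) := ⟨rfl⟩
  exact (Homeomorph.mulLeft (T5.ratG γ)).measurableEmbedding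

/-- **Folding, `ℝ≥0∞` form.** -/
theorem lintegral_fold555 {μ : Measure (G K)} {F : Set (G K)} (hF : T5.IsFrame μ F)
    (𝔪 : Ideal (𝓞 K)) (Y : ℝ) (f : G K → ℝ≥0∞)
    (hinv : ∀ (γ : GL (Fin 2) K) (g : G K), f (T5.ratG γ * g) = f g) :
    ∑' x : Projectivization K (Fin 2 → K), ∫⁻ g in F ∩ {g | x ∈ cntSet 𝔪 Y g}, f g ∂μ
      = ∫⁻ g in foldDom555 F ∩ foldSet555 𝔪 Y, f g ∂μ := by
  have : Countable (Projectivization K (Fin 2 → K)) := countable_proj724 K
  rw [foldDom_inter555, lintegral_iUnion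
    (fun x => (measurableSet_foldPiece555 hF.meas x).inter (measurableSet_foldSet555 𝔪 Y))
    (foldPieceInter_disjoint555 hF 𝔪 Y) f]
  congr 1
  funext x
  have h := (measurePreserving_ratG555 hF (gamX555 x)).setLIntegral_comp_preimage_emb
    (measurableEmbedding_ratG555 (gamX555 x)) f (foldPiece555 F x ∩ foldSet555 𝔪 Y)
  rw [preimage_piece555] at h
  simp only [hinv] at h
  exact h

/-- The sum of the measures of the pieces. -/
theorem tsum_measure_fold555 {μ : Measure (G K)} {F : Set (G K)} (hF : T5.IsFrame μ F)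
    (𝔪 : Ideal (𝓞 K)) (Y : ℝ) :
    ∑' x : Projectivization K (Fin 2 → K), μ (F ∩ {g | x ∈ cntSet 𝔪 Y g})
      = μ (foldDom555 F ∩ foldSet555 𝔪 Y) := by
  have h := lintegral_fold555 hF 𝔪 Y (fun _ => 1) (fun _ _ => rfl)
  simpa using h

/-- If the set `foldDom F ∩ E` has finite measure, then the counting set is finite for almost
every `g ∈ F`. -/
theorem ae_finite_cntSet555 {μ : Measure (G K)} {F : Set (G K)} (hF : T5.IsFrame μ F)
    (𝔪 : Ideal (𝓞 K)) (Y : ℝ) (hfin : μ (foldDom555 F ∩ foldSet555 𝔪 Y) < ⊤) :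
    ∀ᵐ g ∂(μ.restrict F), (cntSet 𝔪 Y g).Finite := by
  have : Countable (Projectivization K (Fin 2 → K)) := countable_proj724 K
  set S : Projectivization K (Fin 2 → K) → Set (G K) := fun x => {g | x ∈ cntSet 𝔪 Y g} with hS
  have hSm : ∀ x, MeasurableSet (S x) := fun x => measurableSet_mem_cntSet724 𝔪 Y x
  set u : G K → ℝ≥0∞ := fun g => ∑' x, (S x).indicator (fun _ => (1 : ℝ≥0∞)) g with hu
  have hum : Measurable u :=
    Measurable.ennreal_tsum fun x => measurable_const.indicator (hSm x)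
  have hint : ∫⁻ g in F, u g ∂μ = μ (foldDom555 F ∩ foldSet555 𝔪 Y) := by
    rw [hu, lintegral_tsum fun x => (measurable_const.indicator (hSm x)).aemeasurable,
      ← tsum_measure_fold555 hF 𝔪 Y]
    congr 1
    funext x
    rw [lintegral_indicator (hSm x), setLIntegral_const, one_mul,
      Measure.restrict_apply (hSm x), Set.inter_comm]
  have hae := ae_lt_top hum (by rw [hint]; exact hfin.ne)
  filter_upwards [hae] with g hg
  by_contra hinf
  have hinf' : Infinite (cntSet 𝔪 Y g) := Set.infinite_coe_iff.mpr hinf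
  have hug : u g = ⊤ := by
    show ∑' x, (S x).indicator (fun _ => (1 : ℝ≥0∞)) g = ⊤
    have e : (fun x => (S x).indicator (fun _ => (1 : ℝ≥0∞)) g)
        = (cntSet 𝔪 Y g).indicator (fun _ => (1 : ℝ≥0∞)) := by
      funext x
      by_cases hx : x ∈ cntSet 𝔪 Y g
      · rw [Set.indicator_of_mem hx, Set.indicator_of_mem (show g ∈ S x from hx)]
      · rw [Set.indicator_of_notMem hx, Set.indicator_of_notMem (show g ∉ S x from hx)]
    rw [e, ← tsum_subtype]
    exact ENNReal.tsum_const_eq_top_of_ne_zero one_ne_zero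
  rw [hug] at hg
  exact lt_irrefl _ hg

/-- **Folding, complex form.**  If `foldDom F ∩ E` has finite measure, then for every bounded
measurable `Φ`, left invariant under `GL₂(K)`:
`∫_F Φ · cnt 𝔪 Y dμ = ∫_{foldDom F ∩ E} Φ dμ`. -/
theorem integral_fold555 {μ : Measure (G K)} {F : Set (G K)} (hF : T5.IsFrame μ F)
    (𝔪 : Ideal (𝓞 K)) (Y : ℝ) (hfin : μ (foldDom555 F ∩ foldSet555 𝔪 Y) < ⊤)
    {Φ : G K → ℂ} (hm : Measurable Φ) (hb : ∃ C : ℝ, ∀ g : G K, ‖Φ g‖ ≤ C)
    (hinv : ∀ (γ : GL (Fin 2) K) (g : G K), Φ (T5.ratG γ * g) = Φ g) :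
    ∫ g in F, Φ g * (((cnt 𝔪 Y g : ℕ) : ℝ) : ℂ) ∂μ
      = ∫ g in foldDom555 F ∩ foldSet555 𝔪 Y, Φ g ∂μ := by
  classical
  have hbs : BorelSpace (G K) := ⟨rfl⟩
  have : Countable (Projectivization K (Fin 2 → K)) := countable_proj724 K
  obtain ⟨C, hC⟩ := hb
  set S : Projectivization K (Fin 2 → K) → Set (G K) := fun x => {g | x ∈ cntSet 𝔪 Y g} with hS
  have hSm : ∀ x, MeasurableSet (S x) := fun x => measurableSet_mem_cntSet724 𝔪 Y x
  -- the right hand side
  have hR : ∫ g in foldDom555 F ∩ foldSet555 𝔪 Y, Φ g ∂μ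
      = ∑' x, ∫ g in F ∩ S x, Φ g ∂μ := by
    have hio : IntegrableOn Φ (⋃ x, (foldPiece555 F x ∩ foldSet555 𝔪 Y)) μ := by
      rw [← foldDom_inter555]
      exact Measure.integrableOn_of_bounded (M := C) hfin.ne hm.aestronglyMeasurable
        (Filter.Eventually.of_forall hC)
    rw [foldDom_inter555, integral_iUnion
      (fun x => (measurableSet_foldPiece555 hF.meas x).inter (measurableSet_foldSet555 𝔪 Y))
      (foldPieceInter_disjoint555 hF 𝔪 Y) hio]
    congr 1
    funext x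
    have h := (measurePreserving_ratG555 hF (gamX555 x)).setIntegral_preimage_emb
      (measurableEmbedding_ratG555 (gamX555 x)) Φ (foldPiece555 F x ∩ foldSet555 𝔪 Y)
    rw [preimage_piece555] at h
    simp only [hinv] at h
    exact h.symm
  -- the left hand side
  have hae := ae_finite_cntSet555 hF 𝔪 Y hfin
  have hL1 : ∫ g in F, Φ g * (((cnt 𝔪 Y g : ℕ) : ℝ) : ℂ) ∂μ
      = ∫ g in F, ∑' x, (S x).indicator Φ g ∂μ := by
    refine integral_congr_ae ?_
    filter_upwards [hae] with g hg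
    have e : (fun x => (S x).indicator Φ g)
        = fun x => if x ∈ hg.toFinset then Φ g else 0 := by
      funext x
      by_cases hx : x ∈ cntSet 𝔪 Y g
      · rw [Set.indicator_of_mem (show g ∈ S x from hx), if_pos (hg.mem_toFinset.mpr hx)]
      · rw [Set.indicator_of_notMem (show g ∉ S x from hx),
          if_neg (fun h => hx (hg.mem_toFinset.mp h))]
    show Φ g * (((cnt 𝔪 Y g : ℕ) : ℝ) : ℂ) = ∑' x, (S x).indicator Φ g
    rw [e, tsum_eq_sum (s := hg.toFinset) (fun x hx => if_neg hx),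
      Finset.sum_ite_mem, Finset.inter_self, Finset.sum_const, nsmul_eq_mul, mul_comm]
    congr 1
    have hcard : cnt 𝔪 Y g = hg.toFinset.card := by
      unfold cnt
      rw [Nat.card_coe_set_eq, Set.ncard_eq_toFinset_card _ hg]
    rw [hcard, Complex.ofReal_natCast]
  have hsumfin : ∑' x, ∫⁻ g, ‖(S x).indicator Φ g‖ₑ ∂(μ.restrict F) ≠ ⊤ := by
    have hle : ∀ x, ∫⁻ g, ‖(S x).indicator Φ g‖ₑ ∂(μ.restrict F)
        ≤ ENNReal.ofReal C * μ (F ∩ S x) := by
      intro x
      calc ∫⁻ g, ‖(S x).indicator Φ g‖ₑ ∂(μ.restrict F)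
          ≤ ∫⁻ g, (S x).indicator (fun _ => ENNReal.ofReal C) g ∂(μ.restrict F) := by
            refine lintegral_mono fun g => ?_
            by_cases hg : g ∈ S x
            · rw [Set.indicator_of_mem hg, Set.indicator_of_mem hg]
              rw [← ofReal_norm]
              exact ENNReal.ofReal_le_ofReal (hC g)
            · rw [Set.indicator_of_notMem hg, Set.indicator_of_notMem hg, enorm_zero]
        _ = ENNReal.ofReal C * μ (F ∩ S x) := by
            rw [lintegral_indicator (hSm x), setLIntegral_const,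
              Measure.restrict_apply (hSm x), Set.inter_comm]
    refine ne_of_lt (lt_of_le_of_lt (ENNReal.tsum_le_tsum hle) ?_)
    rw [ENNReal.tsum_mul_left, tsum_measure_fold555 hF 𝔪 Y]
    exact ENNReal.mul_lt_top ENNReal.ofReal_lt_top hfin
  have hL2 : ∫ g in F, ∑' x, (S x).indicator Φ g ∂μ = ∑' x, ∫ g in F ∩ S x, Φ g ∂μ := by
    rw [integral_tsum (fun x => (hm.indicator (hSm x)).aestronglyMeasurable) hsumfin]
    congr 1
    funext x
    rw [integral_indicator (hSm x), Measure.restrict_restrict (hSm x), Set.inter_comm]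
  rw [hL1, hL2, hR]

/-- **Folding, `ℝ≥0∞` form with the extended counting function** (the left hand side of
helper57's `CorePosC57`): for measurable `Φ ≥ 0`, left invariant under `GL₂(K)`,
`∫⁻_F Φ · encard (cntSet 𝔪 Y) dμ = ∫⁻_{foldDom F ∩ E} Φ dμ`. -/
theorem lintegral_encard_fold555 {μ : Measure (G K)} {F : Set (G K)} (hF : T5.IsFrame μ F)
    (𝔪 : Ideal (𝓞 K)) (Y : ℝ) {Φ : G K → ℝ≥0∞} (hm : Measurable Φ)
    (hinv : ∀ (γ : GL (Fin 2) K) (g : G K), Φ (T5.ratG γ * g) = Φ g) :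
    ∫⁻ g in F, Φ g * (((cntSet 𝔪 Y g).encard : ℕ∞) : ℝ≥0∞) ∂μ
      = ∫⁻ g in foldDom555 F ∩ foldSet555 𝔪 Y, Φ g ∂μ := by
  have : Countable (Projectivization K (Fin 2 → K)) := countable_proj724 K
  set S : Projectivization K (Fin 2 → K) → Set (G K) := fun x => {g | x ∈ cntSet 𝔪 Y g} with hS
  have hSm : ∀ x, MeasurableSet (S x) := fun x => measurableSet_mem_cntSet724 𝔪 Y x
  have hpt : ∀ g : G K, Φ g * (((cntSet 𝔪 Y g).encard : ℕ∞) : ℝ≥0∞)
      = ∑' x, (S x).indicator Φ g := by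
    intro g
    rw [← ENNReal.tsum_set_one, ← ENNReal.tsum_mul_left, tsum_subtype (cntSet 𝔪 Y g)
      (fun _ => Φ g * 1)]
    congr 1
    funext x
    by_cases hx : x ∈ cntSet 𝔪 Y g
    · rw [Set.indicator_of_mem hx, Set.indicator_of_mem (show g ∈ S x from hx), mul_one]
    · rw [Set.indicator_of_notMem hx, Set.indicator_of_notMem (show g ∉ S x from hx)]
  simp only [hpt]
  rw [lintegral_tsum fun x => (hm.indicator (hSm x)).aemeasurable,
    ← lintegral_fold555 hF 𝔪 Y Φ hinv]
  congr 1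
  funext x
  rw [lintegral_indicator (hSm x), Measure.restrict_restrict (hSm x), Set.inter_comm]

/-! ## 5. `foldDom F` is a strict fundamental domain of `B(K)` -/

theorem botRow_inv_ne_zero555 (γ : GL (Fin 2) K) :
    (fun j => ((γ⁻¹ : GL (Fin 2) K) : Matrix (Fin 2) (Fin 2) K) 1 j) ≠ 0 := by
  intro h
  have h0 : ((γ⁻¹ : GL (Fin 2) K) : Matrix (Fin 2) (Fin 2) K) 1 0 = 0 := congrFun h 0
  have h1 : ((γ⁻¹ : GL (Fin 2) K) : Matrix (Fin 2) (Fin 2) K) 1 1 = 0 := congrFun h 1
  have hdet : Matrix.det ((γ⁻¹ : GL (Fin 2) K) : Matrix (Fin 2) (Fin 2) K) ≠ 0 :=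
    (Matrix.GeneralLinearGroup.det γ⁻¹).ne_zero
  apply hdet
  rw [Matrix.det_fin_two, h0, h1]
  ring

/-- **`foldDom F` is a strict fundamental domain** for the left action of the upper triangular
matrices of `GL₂(K)` on the slab. -/
theorem foldDom_strict555 {μ : Measure (G K)} {F : Set (G K)} (hF : T5.IsFrame μ F)
    (g : G K) (hg : g ∈ T5.slab K) :
    ∃! β : GL (Fin 2) K, (β : Matrix (Fin 2) (Fin 2) K) 1 0 = 0 ∧
      T5.ratG β * g ∈ foldDom555 F := by
  obtain ⟨γ, hγ, huniq⟩ := hF.strict g hg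
  set u : Fin 2 → K := fun j => ((γ⁻¹ : GL (Fin 2) K) : Matrix (Fin 2) (Fin 2) K) 1 j with hu
  have hu0 : u ≠ 0 := botRow_inv_ne_zero555 γ
  set x : Projectivization K (Fin 2 → K) := Projectivization.mk K u hu0 with hx
  -- the key: if `γ_y γ` is upper triangular then `y = x`
  have key : ∀ y : Projectivization K (Fin 2 → K),
      ((gamX555 y * γ : GL (Fin 2) K) : Matrix (Fin 2) (Fin 2) K) 1 0 = 0 → y = x := by
    intro y hy
    set β' : GL (Fin 2) K := gamX555 y * γ with hβ'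
    have hgy : gamX555 y = β' * γ⁻¹ := by rw [hβ', mul_inv_cancel_right]
    have hrep : y.rep = (β' : Matrix (Fin 2) (Fin 2) K) 1 1 • u := by
      funext j
      rw [← gamX_row555 y j, hgy, Units.val_mul, Matrix.mul_apply, Fin.sum_univ_two, hy,
        zero_mul, zero_add]
      rfl
    have hb : (β' : Matrix (Fin 2) (Fin 2) K) 1 1 ≠ 0 := by
      intro hb
      apply y.rep_nonzero
      rw [hrep, hb, zero_smul]
    rw [← y.mk_rep, hx, Projectivization.mk_eq_mk_iff]
    exact ⟨Units.mk0 _ hb, by rw [hrep]; rfl⟩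
  -- existence
  have hex : ((gamX555 x * γ : GL (Fin 2) K) : Matrix (Fin 2) (Fin 2) K) 1 0 = 0 := by
    have hmk : Projectivization.mk K x.rep x.rep_nonzero = Projectivization.mk K u hu0 :=
      x.mk_rep
    obtain ⟨a, ha⟩ := (Projectivization.mk_eq_mk_iff K _ _ _ _).mp hmk
    have hone : ((γ⁻¹ * γ : GL (Fin 2) K) : Matrix (Fin 2) (Fin 2) K) 1 0 = 0 := by
      rw [inv_mul_cancel]
      simp
    rw [Units.val_mul, Matrix.mul_apply, Fin.sum_univ_two] at hone
    rw [Units.val_mul, Matrix.mul_apply, Fin.sum_univ_two, gamX_row555, gamX_row555, ← ha]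
    simp only [Pi.smul_apply, Units.smul_def, smul_eq_mul, hu]
    rw [mul_assoc, mul_assoc, ← mul_add, hone, mul_zero]
  refine ⟨gamX555 x * γ, ⟨hex, ?_⟩, ?_⟩
  · rw [map_mul, mul_assoc]
    exact Set.mem_iUnion.mpr ⟨x, ⟨_, hγ, rfl⟩⟩
  · rintro β' ⟨hβ0, hβF⟩
    obtain ⟨y, hy⟩ := Set.mem_iUnion.mp hβF
    rw [mem_foldPiece_iff555, ← mul_assoc, ← map_inv, ← map_mul] at hy
    have hγ' : (gamX555 y)⁻¹ * β' = γ := huniq _ hy
    have hβ' : β' = gamX555 y * γ := by rw [← hγ', mul_inv_cancel_left]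
    have hyx : y = x := key y (by rw [← hβ']; exact hβ0)
    rw [hβ', hyx]

end Fermat.Agent.LT.T7.H555
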