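import Mathlib
import Fermat.Agent.LT.T1.H793.SiegelSep
import Fermat.Agent.LT.T1.H793.Iwasawa
import Fermat.Agent.LT.T7.H555.Fold

/-!
# Row LT, tower T7, ASSIST for T7.14.6a `FoldWhitC`, step (2a): the set `E` in Iwasawa
coordinates (helper555)

OFF-MAIN.  On `Fold.lean` (helper555), helper793 `T1/H793/{Height, SiegelSep, Iwasawa}.lean`
(tower T1, byte-identical copies).

* `rowNorm_smul555` : `rowNorm (c • r) = ‖c‖_𝔸 · rowNorm r` for an idele `c`.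
* `rowNorm_botRow_std555` : the bottom row of `k ∈ K⁰` has `rowNorm = 1`.
* `rowNorm_botRow_mul555`, `adNorm_det_mul555` : for `g = b k`, `b` upper triangular, `k ∈ K⁰`:
  `rowNorm (bottom row of g) = ‖b₁₁‖_𝔸` and `‖det g‖_𝔸 = ‖b₀₀‖_𝔸 ‖b₁₁‖_𝔸`.
* **`mem_foldSet_mul_iff555`** : `b k ∈ E(𝔪, Y) ↔ Y ≤ ‖b₀₀‖_𝔸 / ‖b₁₁‖_𝔸 ∧ k ∈ K₀(𝔪)` (bottom row
  `(c, d)` of `k` with `c_v ∈ 𝔪 d_v` for `v ∣ 𝔪`).
* `mem_foldSet_iff_hasHeight555` : `g ∈ E(𝔪, Y)` implies `Y ≤ t` for every height `t` of `g`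
  (`T1.HasHeight`).
* `foldSet_upper_mul555` : `E` is stable under left multiplication by upper triangular `b` with
  `‖b₀₀‖_𝔸 = ‖b₁₁‖_𝔸` (in particular by `B(K)`, `N(𝔸)`, `Z(𝔸)`).
-/

set_option autoImplicit false

open IsDedekindDomain NumberField MeasureTheory AutomorphicForm
open Fermat.Agent.LT.H556 Fermat.Agent.LT.H556.A0
open Fermat.Agent.LT

noncomputable section

namespace Fermat.Agent.LT.T7.H555

open Fermat.Agent.LT.T7.H250 Fermat.Agent.LT.T7.Rigid Fermat.Agent.LT.T1.H793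

variable {K : Type} [Field K] [NumberField K]

/-! ## 1. Scaling of the row norm -/

theorem rpow_sq_half555 (a : ℝ) (ha : 0 ≤ a) (m : ℕ) : (a ^ 2) ^ ((m : ℝ) / 2) = a ^ m := by
  rw [← Real.rpow_natCast a 2, ← Real.rpow_mul ha]
  have : ((2 : ℕ) : ℝ) * ((m : ℝ) / 2) = (m : ℝ) := by push_cast; ring
  rw [this, Real.rpow_natCast]

/-- `rowNorm (c • r) = ‖c‖_𝔸 · rowNorm r` for an idele `c`. -/
theorem rowNorm_smul555 (c : (Adl K)ˣ) (r : Fin 2 → Adl K)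
    (hr : Function.HasFiniteMulSupport
      fun v : HeightOneSpectrum (𝓞 K) => max ‖(r 0).2 v‖ ‖(r 1).2 v‖) :
    rowNorm (fun j => (c : Adl K) * r j) = T5.adNorm (c : Adl K) * rowNorm r := by
  unfold rowNorm T5.adNorm
  have hinf : ∀ w : InfinitePlace K,
      (‖((c : Adl K) * r 0).1 w‖ ^ 2 + ‖((c : Adl K) * r 1).1 w‖ ^ 2) ^ ((w.mult : ℝ) / 2)
        = ‖(c : Adl K).1 w‖ ^ w.mult
          * (‖(r 0).1 w‖ ^ 2 + ‖(r 1).1 w‖ ^ 2) ^ ((w.mult : ℝ) / 2) := by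
    intro w
    have e0 : ‖((c : Adl K) * r 0).1 w‖ = ‖(c : Adl K).1 w‖ * ‖(r 0).1 w‖ := by
      rw [← norm_mul]; rfl
    have e1 : ‖((c : Adl K) * r 1).1 w‖ = ‖(c : Adl K).1 w‖ * ‖(r 1).1 w‖ := by
      rw [← norm_mul]; rfl
    rw [e0, e1, mul_pow, mul_pow, ← mul_add,
      Real.mul_rpow (sq_nonneg _) (add_nonneg (sq_nonneg _) (sq_nonneg _)),
      rpow_sq_half555 _ (norm_nonneg _)]
  have hfin : ∀ v : HeightOneSpectrum (𝓞 K),
      max ‖((c : Adl K) * r 0).2 v‖ ‖((c : Adl K) * r 1).2 v‖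
        = ‖(c : Adl K).2 v‖ * max ‖(r 0).2 v‖ ‖(r 1).2 v‖ := by
    intro v
    have e0 : ‖((c : Adl K) * r 0).2 v‖ = ‖(c : Adl K).2 v‖ * ‖(r 0).2 v‖ := by
      rw [← norm_mul]; rfl
    have e1 : ‖((c : Adl K) * r 1).2 v‖ = ‖(c : Adl K).2 v‖ * ‖(r 1).2 v‖ := by
      rw [← norm_mul]; rfl
    rw [e0, e1, mul_max_of_nonneg _ _ (norm_nonneg _)]
  simp only [hinf, hfin]
  rw [Finset.prod_mul_distrib,
    finprod_mul_distrib (Fermat.Agent.LT.T1.H309.hasFiniteMulSupport309 K c) hr]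
  ring

/-! ## 2. The bottom row of an element of `K⁰` -/

theorem inf_row_std555 {k : G K} (hk : Fermat.Agent.LT.T1.IsStdCompact K k)
    (w : InfinitePlace K) :
    ‖(botRow555 k 0).1 w‖ ^ 2 + ‖(botRow555 k 1).1 w‖ ^ 2 = 1 := by
  have hU := (hk.2 w).1
  have e11 := congrFun (congrFun hU 1) 1
  rw [Matrix.mul_apply, Fin.sum_univ_two] at e11
  simp only [Matrix.conjTranspose_apply, Matrix.one_apply_eq] at e11
  have h0 : ‖infComp w k 1 0‖ = ‖(botRow555 k 0).1 w‖ := norm_extensionEmbedding793 w _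
  have h1 : ‖infComp w k 1 1‖ = ‖(botRow555 k 1).1 w‖ := norm_extensionEmbedding793 w _
  rw [← h0, ← h1]
  have e := congrArg Complex.re e11
  rw [Complex.add_re, Complex.one_re] at e
  have f0 : (infComp w k 1 0 * star (infComp w k 1 0)).re = ‖infComp w k 1 0‖ ^ 2 := by
    rw [Complex.star_def, Complex.mul_conj, Complex.ofReal_re, Complex.normSq_eq_norm_sq]
  have f1 : (infComp w k 1 1 * star (infComp w k 1 1)).re = ‖infComp w k 1 1‖ ^ 2 := by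
    rw [Complex.star_def, Complex.mul_conj, Complex.ofReal_re, Complex.normSq_eq_norm_sq]
  rw [f0, f1] at e
  exact e

theorem fin_row_std555 {k : G K} (hk : Fermat.Agent.LT.T1.IsStdCompact K k)
    (v : HeightOneSpectrum (𝓞 K)) :
    max ‖(botRow555 k 0).2 v‖ ‖(botRow555 k 1).2 v‖ = 1 := by
  have hle : ∀ (g : G K), IsIntegralAt v g → ∀ i j,
      ‖((g : Matrix (Fin 2) (Fin 2) (Adl K)) i j).2 v‖ ≤ 1 := fun g hg i j =>
    Valued.toNormedField.norm_le_one_iff.mpr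
      ((HeightOneSpectrum.mem_adicCompletionIntegers (𝓞 K) K v).mp (hg i j))
  have h0 := hle k (hk.1 v).1 1 0
  have h1 := hle k (hk.1 v).1 1 1
  have g0 := hle k⁻¹ (hk.1 v).2 0 1
  have g1 := hle k⁻¹ (hk.1 v).2 1 1
  apply le_antisymm (max_le h0 h1)
  by_contra hlt
  rw [not_le, max_lt_iff] at hlt
  -- `k₁₀ k'₀₁ + k₁₁ k'₁₁ = 1`
  have hone : finComp v k 1 0 * finComp v k⁻¹ 0 1 + finComp v k 1 1 * finComp v k⁻¹ 1 1 = 1 := by
    have := congrFun (congrFun (finComp_mul793 v k k⁻¹) 1) 1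
    rw [mul_inv_cancel, finComp_one793, Matrix.mul_apply, Fin.sum_univ_two,
      Matrix.one_apply_eq] at this
    exact this.symm
  have hv1 : Valued.v (finComp v k 1 0 * finComp v k⁻¹ 0 1) < 1 := by
    rw [← Valued.toNormedField.norm_lt_one_iff, norm_mul]
    calc ‖finComp v k 1 0‖ * ‖finComp v k⁻¹ 0 1‖ ≤ ‖finComp v k 1 0‖ * 1 :=
          mul_le_mul_of_nonneg_left g0 (norm_nonneg _)
      _ < 1 := by rw [mul_one]; exact hlt.1
  have hv2 : Valued.v (finComp v k 1 1 * finComp v k⁻¹ 1 1) < 1 := by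
    rw [← Valued.toNormedField.norm_lt_one_iff, norm_mul]
    calc ‖finComp v k 1 1‖ * ‖finComp v k⁻¹ 1 1‖ ≤ ‖finComp v k 1 1‖ * 1 :=
          mul_le_mul_of_nonneg_left g1 (norm_nonneg _)
      _ < 1 := by rw [mul_one]; exact hlt.2
  have hsum := Valuation.map_add_lt (Valued.v) hv1 hv2
  rw [hone, map_one] at hsum
  exact lt_irrefl _ hsum

theorem hasFiniteMulSupport_std555 {k : G K} (hk : Fermat.Agent.LT.T1.IsStdCompact K k) :
    Function.HasFiniteMulSupport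
      fun v : HeightOneSpectrum (𝓞 K) => max ‖(botRow555 k 0).2 v‖ ‖(botRow555 k 1).2 v‖ := by
  have : (fun v : HeightOneSpectrum (𝓞 K) => max ‖(botRow555 k 0).2 v‖ ‖(botRow555 k 1).2 v‖)
      = fun _ => 1 := funext fun v => fin_row_std555 hk v
  rw [this]
  unfold Function.HasFiniteMulSupport
  simp

/-- The bottom row of an element of `K⁰` has row norm `1`. -/
theorem rowNorm_botRow_std555 {k : G K} (hk : Fermat.Agent.LT.T1.IsStdCompact K k) :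
    rowNorm (botRow555 k) = 1 := by
  unfold rowNorm
  simp only [inf_row_std555 hk, fin_row_std555 hk, Real.one_rpow, Finset.prod_const_one,
    finprod_one, mul_one]

/-! ## 3. The set `E` in Iwasawa coordinates -/

/-- The bottom row of `b g`, `b` upper triangular, is `b₁₁ •` the bottom row of `g`. -/
theorem botRow_upper_mul555 {b : G K} (hb : Fermat.Agent.LT.T1.IsUpper K b) (g : G K)
    (j : Fin 2) :
    botRow555 (b * g) j = (b : Matrix (Fin 2) (Fin 2) (Adl K)) 1 1 * botRow555 g j := by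
  have h : (b : Matrix (Fin 2) (Fin 2) (Adl K)) 1 0 = 0 := hb
  unfold botRow555
  rw [Units.val_mul, Matrix.mul_apply, Fin.sum_univ_two, h, zero_mul, zero_add]

/-- `rowNorm (bottom row of b k) = ‖b₁₁‖_𝔸`. -/
theorem rowNorm_botRow_mul555 {b k : G K} (hb : Fermat.Agent.LT.T1.IsUpper K b)
    (hk : Fermat.Agent.LT.T1.IsStdCompact K k) :
    rowNorm (botRow555 (b * k)) = T5.adNorm ((b : Matrix (Fin 2) (Fin 2) (Adl K)) 1 1) := by
  obtain ⟨c, hc⟩ := (isUnit_diag793 hb).2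
  have h : botRow555 (b * k) = fun j => (c : Adl K) * botRow555 k j := by
    funext j
    rw [botRow_upper_mul555 hb, hc]
  rw [h, rowNorm_smul555 c _ (hasFiniteMulSupport_std555 hk), rowNorm_botRow_std555 hk, mul_one,
    hc]

/-- `‖det (b k)‖_𝔸 = ‖b₀₀‖_𝔸 ‖b₁₁‖_𝔸`. -/
theorem adNorm_det_mul555 {b k : G K} (hb : Fermat.Agent.LT.T1.IsUpper K b)
    (hk : Fermat.Agent.LT.T1.IsStdCompact K k) :
    T5.adNorm (Matrix.det ((b * k : G K) : Matrix (Fin 2) (Fin 2) (Adl K)))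
      = T5.adNorm ((b : Matrix (Fin 2) (Fin 2) (Adl K)) 0 0)
        * T5.adNorm ((b : Matrix (Fin 2) (Fin 2) (Adl K)) 1 1) := by
  have h1 := detN_mul555 b k
  unfold detN250n at h1
  have h2 : T5.adNorm (Matrix.det (k : Matrix (Fin 2) (Fin 2) (Adl K))) = 1 :=
    adNorm_det_std793 hk
  rw [h1, h2, mul_one, det_upper793 hb]
  obtain ⟨c0, hc0⟩ := (isUnit_diag793 hb).1
  obtain ⟨c1, hc1⟩ := (isUnit_diag793 hb).2
  rw [← hc0, ← hc1, ← Units.val_mul]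
  exact Fermat.Agent.LT.T1.H309.adNorm_mul309 K c0 c1

theorem adNorm_pos_of_isUnit555 {x : Adl K} (hx : IsUnit x) : 0 < T5.adNorm x := by
  obtain ⟨c, rfl⟩ := hx
  exact Fermat.Agent.LT.T1.H309.adNorm_pos309 K c

/-- **The set `E(𝔪, Y)` in Iwasawa coordinates**: `b k ∈ E ↔ Y ≤ ‖b₀₀‖ / ‖b₁₁‖` and the bottom
row `(c, d)` of `k` satisfies `c_v ∈ 𝔪 d_v` at every `v ∣ 𝔪`. -/
theorem mem_foldSet_mul_iff555 (𝔪 : Ideal (𝓞 K)) (Y : ℝ) {b k : G K}
    (hb : Fermat.Agent.LT.T1.IsUpper K b) (hk : Fermat.Agent.LT.T1.IsStdCompact K k) :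
    b * k ∈ foldSet555 𝔪 Y ↔
      Y ≤ T5.adNorm ((b : Matrix (Fin 2) (Fin 2) (Adl K)) 0 0)
          / T5.adNorm ((b : Matrix (Fin 2) (Fin 2) (Adl K)) 1 1) ∧
      ∀ v : HeightOneSpectrum (𝓞 K), v.asIdeal ∣ 𝔪 →
        ∃ t ∈ idealClosure 𝔪 v, (botRow555 k 0).2 v = t * (botRow555 k 1).2 v := by
  have hpos : 0 < T5.adNorm ((b : Matrix (Fin 2) (Fin 2) (Adl K)) 1 1) :=
    adNorm_pos_of_isUnit555 (isUnit_diag793 hb).2
  obtain ⟨c, hc⟩ := (isUnit_diag793 hb).2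
  unfold foldSet555
  simp only [Set.mem_ofPred_eq]
  rw [rowNorm_botRow_mul555 hb hk, adNorm_det_mul555 hb hk]
  refine and_congr ?_ (forall_congr' fun v => imp_congr_right fun _ => ?_)
  · rw [le_div_iff₀ hpos]
    constructor
    · intro h
      nlinarith
    · intro h
      nlinarith
  · have hne : (c : Adl K).2 v ≠ 0 := Fermat.Agent.LT.T1.H309.fin_ne_zero309 K c v
    have e : ∀ j, (botRow555 (b * k) j).2 v = (c : Adl K).2 v * (botRow555 k j).2 v := by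
      intro j
      rw [botRow_upper_mul555 hb, ← hc]
      rfl
    simp only [e]
    refine exists_congr fun t => and_congr_right fun _ => ?_
    constructor
    · intro h
      have h' : (c : Adl K).2 v * (botRow555 k 0).2 v
          = (c : Adl K).2 v * (t * (botRow555 k 1).2 v) := by rw [h]; ring
      exact mul_left_cancel₀ hne h'
    · intro h
      rw [h]
      ring

/-- If `g ∈ E(𝔪, Y)` then `Y ≤ t` for every height `t` of `g`. -/
theorem le_height_of_mem_foldSet555 (𝔪 : Ideal (𝓞 K)) (Y : ℝ) {g : G K}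
    (hg : g ∈ foldSet555 𝔪 Y) (t : ℝ) (ht : Fermat.Agent.LT.T1.HasHeight K g t) : Y ≤ t := by
  obtain ⟨b, k, hb, hk, rfl, rfl⟩ := ht
  exact ((mem_foldSet_mul_iff555 𝔪 Y hb hk).mp hg).1

/-- **Scaling of `E` under the left action of `B(𝔸)`**: `b g ∈ E(𝔪, Y) ↔ g ∈ E(𝔪, Y ‖b₁₁‖ / ‖b₀₀‖)`
for `b` upper triangular. -/
theorem upper_mul_mem_foldSet_iff555 (𝔪 : Ideal (𝓞 K)) (Y : ℝ) {b : G K}
    (hb : Fermat.Agent.LT.T1.IsUpper K b) (g : G K) :
    b * g ∈ foldSet555 𝔪 Y ↔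
      g ∈ foldSet555 𝔪 (Y * (T5.adNorm ((b : Matrix (Fin 2) (Fin 2) (Adl K)) 1 1)
        / T5.adNorm ((b : Matrix (Fin 2) (Fin 2) (Adl K)) 0 0))) := by
  obtain ⟨b', k, hb', hk, rfl⟩ := iwasawaC793 K g
  have hbb : Fermat.Agent.LT.T1.IsUpper K (b * b') := isUpper_mul793 hb hb'
  rw [← mul_assoc, mem_foldSet_mul_iff555 𝔪 Y hbb hk, mem_foldSet_mul_iff555 𝔪 _ hb' hk,
    mul_apply_zero_zero793 hb', mul_apply_one_one793 hb]
  refine and_congr ?_ Iff.rfl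
  obtain ⟨c0, hc0⟩ := (isUnit_diag793 hb).1
  obtain ⟨c1, hc1⟩ := (isUnit_diag793 hb).2
  obtain ⟨d0, hd0⟩ := (isUnit_diag793 hb').1
  obtain ⟨d1, hd1⟩ := (isUnit_diag793 hb').2
  rw [← hc0, ← hc1, ← hd0, ← hd1, ← Units.val_mul, ← Units.val_mul]
  have m0 : T5.adNorm ((c0 * d0 : (Adl K)ˣ) : Adl K)
      = T5.adNorm (c0 : Adl K) * T5.adNorm (d0 : Adl K) :=
    Fermat.Agent.LT.T1.H309.adNorm_mul309 K c0 d0
  have m1 : T5.adNorm ((c1 * d1 : (Adl K)ˣ) : Adl K)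
      = T5.adNorm (c1 : Adl K) * T5.adNorm (d1 : Adl K) :=
    Fermat.Agent.LT.T1.H309.adNorm_mul309 K c1 d1
  rw [m0, m1]
  have p0 : 0 < T5.adNorm (c0 : Adl K) := Fermat.Agent.LT.T1.H309.adNorm_pos309 K c0
  have p1 : 0 < T5.adNorm (c1 : Adl K) := Fermat.Agent.LT.T1.H309.adNorm_pos309 K c1
  have q0 : 0 < T5.adNorm (d0 : Adl K) := Fermat.Agent.LT.T1.H309.adNorm_pos309 K d0
  have q1 : 0 < T5.adNorm (d1 : Adl K) := Fermat.Agent.LT.T1.H309.adNorm_pos309 K d1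
  rw [le_div_iff₀ (mul_pos p1 q1), le_div_iff₀ q1]
  constructor
  · intro h
    have : Y * (T5.adNorm (c1 : Adl K) / T5.adNorm (c0 : Adl K)) * T5.adNorm (d1 : Adl K)
        = (Y * (T5.adNorm (c1 : Adl K) * T5.adNorm (d1 : Adl K))) / T5.adNorm (c0 : Adl K) := by
      field_simp
    rw [this, div_le_iff₀ p0]
    linarith
  · intro h
    have : Y * (T5.adNorm (c1 : Adl K) / T5.adNorm (c0 : Adl K)) * T5.adNorm (d1 : Adl K)
        = (Y * (T5.adNorm (c1 : Adl K) * T5.adNorm (d1 : Adl K))) / T5.adNorm (c0 : Adl K) := by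
      field_simp
    rw [this, div_le_iff₀ p0] at h
    linarith

/-- `E` is stable under left multiplication by upper triangular elements with
`‖b₀₀‖_𝔸 = ‖b₁₁‖_𝔸`. -/
theorem foldSet_upper_mul555 (𝔪 : Ideal (𝓞 K)) (Y : ℝ) {b : G K}
    (hb : Fermat.Agent.LT.T1.IsUpper K b)
    (hn : T5.adNorm ((b : Matrix (Fin 2) (Fin 2) (Adl K)) 0 0)
      = T5.adNorm ((b : Matrix (Fin 2) (Fin 2) (Adl K)) 1 1)) (g : G K) :
    b * g ∈ foldSet555 𝔪 Y ↔ g ∈ foldSet555 𝔪 Y := by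
  rw [upper_mul_mem_foldSet_iff555 𝔪 Y hb g, hn,
    div_self (adNorm_pos_of_isUnit555 (isUnit_diag793 hb).2).ne', mul_one]

/-- `E` is left invariant under the upper triangular matrices of `GL₂(K)` (product formula). -/
theorem foldSet_ratUpper_mul555 (𝔪 : Ideal (𝓞 K)) (Y : ℝ) (β : GL (Fin 2) K)
    (hβ : (β : Matrix (Fin 2) (Fin 2) K) 1 0 = 0) (g : G K) :
    T5.ratG β * g ∈ foldSet555 𝔪 Y ↔ g ∈ foldSet555 𝔪 Y := by
  have hup : Fermat.Agent.LT.T1.IsUpper K (T5.ratG β) := by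
    show ((T5.ratG β : G K) : Matrix (Fin 2) (Fin 2) (Adl K)) 1 0 = 0
    rw [ratG_apply555, hβ, map_zero]
  have hdet : (β : Matrix (Fin 2) (Fin 2) K) 0 0 * (β : Matrix (Fin 2) (Fin 2) K) 1 1 ≠ 0 := by
    have h := (Matrix.GeneralLinearGroup.det β).ne_zero
    have e : ((Matrix.GeneralLinearGroup.det β : Kˣ) : K)
        = Matrix.det (β : Matrix (Fin 2) (Fin 2) K) := rfl
    rw [e, Matrix.det_fin_two, hβ, mul_zero, sub_zero] at h
    exact h
  refine foldSet_upper_mul555 𝔪 Y hup ?_ g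
  rw [ratG_apply555, ratG_apply555]
  have e0 : T5.adNorm (algebraMap K (Adl K) ((β : Matrix (Fin 2) (Fin 2) K) 0 0)) = 1 :=
    Fermat.Agent.LT.T1.H309.adNorm_algebraMap309 K _ (left_ne_zero_of_mul hdet)
  have e1 : T5.adNorm (algebraMap K (Adl K) ((β : Matrix (Fin 2) (Fin 2) K) 1 1)) = 1 :=
    Fermat.Agent.LT.T1.H309.adNorm_algebraMap309 K _ (right_ne_zero_of_mul hdet)
  rw [e0, e1]

end Fermat.Agent.LT.T7.H555
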