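import Mathlib
import Fermat.Agent.LT.T7.H159.SplitIntL
import Fermat.Agent.LT.T7.H340.FactUpSpec

/-!
# Row LT, tower T7, leaves C2.7.13.3 / C2.7.13.4 (`LocEqSplitC340`, `LocEqArchC340`), ASSET:
# FUBINI FOR THE SPLIT INTEGRAL `H340.splitInt340` (helper555), OFF-MAIN

Any second countable topological group `H` with a left invariant measure `μ` which is finite on
compact sets; `Φ j` continuous with compact support, `β ≥ 0` continuous, `P = δ_0 ⋯ δ_{l-1}`.
If `a ↦ 1_K(a⁻¹ P a) β(a)` is integrable for every compact `K` (convergence of the orbital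
integral at `P`), then

    ∫_{H^l} ∏_j Φ_j(y_j⁻¹ δ_j y_{j+1}) β(y_0) dμ^l(y)
        = ∫_H (Φ_0 * ⋯ * Φ_{l-1})(a⁻¹ P a) β(a) dμ(a)          (`splitInt_eq555`)

(left nested convolution integral `H159.convL159`).  The inner integral over
`y_1, …, y_{l-1}` is the iterated integral `H159.iterL159` (`integral_ch555`), which is
`convL159` at `a⁻¹ P b` (`H159.iterL_eq159`).
-/

set_option autoImplicit false

open MeasureTheory
open scoped ENNReal Pointwise

noncomputable section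

namespace Fermat.Agent.LT.T7.H555

open Fermat.Agent.LT Fermat.Agent.LT.T7.H159 Fermat.Agent.LT.T7.H340

/-! ## 1. The chain -/

section Chain

variable {H : Type} [Group H]

/-- The chain `Φ_0(a⁻¹ δ_0 y_0) Φ_1(y_0⁻¹ δ_1 y_1) ⋯ Φ_n(y_{n-1}⁻¹ δ_n b)`. -/
def ch555 (Φ : ℕ → H → ℂ) (δ : ℕ → H) : (n : ℕ) → H → H → (Fin n → H) → ℂ
  | 0, a, b, _ => Φ 0 (a⁻¹ * δ 0 * b)
  | n + 1, a, b, y => ch555 Φ δ n a (y (Fin.last n)) (fun j => y j.castSucc)
      * Φ (n + 1) ((y (Fin.last n))⁻¹ * δ (n + 1) * b)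

theorem ch_eqns_realised555 : True := by
  have _h0 := @ch555.eq_def
  have _h1 := @ch555.eq_1
  have _h2 := @ch555.eq_2
  trivial

theorem ch_zero555 (Φ : ℕ → H → ℂ) (δ : ℕ → H) (a b : H) (y : Fin 0 → H) :
    ch555 Φ δ 0 a b y = Φ 0 (a⁻¹ * δ 0 * b) := rfl

theorem ch_succ555 (Φ : ℕ → H → ℂ) (δ : ℕ → H) (n : ℕ) (a b : H) (y : Fin (n + 1) → H) :
    ch555 Φ δ (n + 1) a b y = ch555 Φ δ n a (y (Fin.last n)) (fun j => y j.castSucc)
      * Φ (n + 1) ((y (Fin.last n))⁻¹ * δ (n + 1) * b) := rfl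

theorem prod_eq_ch555 (Φ : ℕ → H → ℂ) (δ : ℕ → H) : ∀ (n : ℕ) (y : Fin (n + 1) → H) (b : H),
    (∏ j : Fin n, Φ j ((y j.castSucc)⁻¹ * δ j * y j.succ))
        * Φ n ((y (Fin.last n))⁻¹ * δ n * b)
      = ch555 Φ δ n (y 0) b (fun j => y j.succ)
  | 0, y, b => by
    rw [ch_zero555]
    simp
  | n + 1, y, b => by
    have ih := prod_eq_ch555 Φ δ n (fun j => y j.castSucc) (y (Fin.last (n + 1)))
    rw [ch_succ555, Fin.prod_univ_castSucc]
    have e1 : (fun j : Fin n => y (j.castSucc.succ)) = fun j : Fin n => y (j.succ.castSucc) := by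
      funext j
      rw [Fin.succ_castSucc]
    have e2 : (Fin.last n).succ = Fin.last (n + 1) := Fin.succ_last n
    simp only [e2, Fin.val_last, Fin.val_castSucc, Fin.castSucc_zero] at ih ⊢
    rw [e1, ← ih]
    simp only [Fin.succ_castSucc]

theorem cycSucc_castSucc555 {n : ℕ} (j : Fin n) :
    cycSucc340 (j.castSucc : Fin (n + 1)) = j.succ := by
  apply Fin.ext
  show (j.1 + 1) % (n + 1) = j.1 + 1
  exact Nat.mod_eq_of_lt (by omega)

theorem cycSucc_last555 (n : ℕ) : cycSucc340 (Fin.last n) = 0 := by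
  apply Fin.ext
  show (n + 1) % (n + 1) = 0
  exact Nat.mod_self _

theorem cyc_prod_eq_ch555 (Φ : ℕ → H → ℂ) (δ : ℕ → H) (n : ℕ) (y : Fin (n + 1) → H) :
    ∏ j : Fin (n + 1), Φ j ((y j)⁻¹ * δ j * y (cycSucc340 j))
      = ch555 Φ δ n (y 0) (y 0) (fun j => y j.succ) := by
  rw [← prod_eq_ch555, Fin.prod_univ_castSucc]
  simp only [cycSucc_castSucc555, cycSucc_last555, Fin.val_last, Fin.val_castSucc]

/-- The product of the supports. -/
def suppProd555 (Φ : ℕ → H → ℂ) [TopologicalSpace H] : ℕ → Set H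
  | 0 => tsupport (Φ 0)
  | n + 1 => suppProd555 Φ n * tsupport (Φ (n + 1))

theorem suppProd_eqns_realised555 [TopologicalSpace H] : True := by
  have _h0 := @suppProd555.eq_def
  have _h1 := @suppProd555.eq_1
  have _h2 := @suppProd555.eq_2
  trivial

theorem isCompact_suppProd555 [TopologicalSpace H] [IsTopologicalGroup H] (Φ : ℕ → H → ℂ)
    (hΦs : ∀ j, HasCompactSupport (Φ j)) : ∀ n, IsCompact (suppProd555 Φ n)
  | 0 => hΦs 0
  | n + 1 => (isCompact_suppProd555 Φ hΦs n).mul (hΦs (n + 1))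

theorem mem_suppProd_of_ch_ne555 [TopologicalSpace H] (Φ : ℕ → H → ℂ) (δ : ℕ → H) :
    ∀ (n : ℕ) (a b : H) (y : Fin n → H), ch555 Φ δ n a b y ≠ 0 →
      a⁻¹ * prodFrom159 δ (n + 1) 0 * b ∈ suppProd555 Φ n
  | 0, a, b, y, h => by
    rw [ch_zero555] at h
    have : prodFrom159 δ 1 0 = δ 0 := by
      show δ 0 * 1 = δ 0
      rw [mul_one]
    rw [this]
    exact subset_tsupport _ h
  | n + 1, a, b, y, h => by
    rw [ch_succ555] at h
    have h1 := mem_suppProd_of_ch_ne555 Φ δ n a (y (Fin.last n)) _ (left_ne_zero_of_mul h)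
    have h2 : (y (Fin.last n))⁻¹ * δ (n + 1) * b ∈ tsupport (Φ (n + 1)) :=
      subset_tsupport _ (right_ne_zero_of_mul h)
    have e : a⁻¹ * prodFrom159 δ (n + 1 + 1) 0 * b
        = (a⁻¹ * prodFrom159 δ (n + 1) 0 * y (Fin.last n))
          * ((y (Fin.last n))⁻¹ * δ (n + 1) * b) := by
      rw [prodFrom_succ_right159]
      simp only [zero_add]
      group
    rw [e]
    exact Set.mul_mem_mul h1 h2

end Chain

/-! ## 2. Continuity, the uniform bound -/

section Top

variable {H : Type} [Group H] [TopologicalSpace H] [IsTopologicalGroup H]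

theorem continuous_ch555 (Φ : ℕ → H → ℂ) (δ : ℕ → H) (hΦ : ∀ j, Continuous (Φ j)) :
    ∀ n : ℕ, Continuous (fun p : H × H × (Fin n → H) => ch555 Φ δ n p.1 p.2.1 p.2.2)
  | 0 => by
    show Continuous (fun p : H × H × (Fin 0 → H) => Φ 0 (p.1⁻¹ * δ 0 * p.2.1))
    exact (hΦ 0).comp (by fun_prop)
  | n + 1 => by
    have ih := continuous_ch555 Φ δ hΦ n
    show Continuous (fun p : H × H × (Fin (n + 1) → H) =>
      ch555 Φ δ n p.1 (p.2.2 (Fin.last n)) (fun j => p.2.2 j.castSucc)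
        * Φ (n + 1) ((p.2.2 (Fin.last n))⁻¹ * δ (n + 1) * p.2.1))
    refine Continuous.mul ?_ ?_
    · exact ih.comp (by fun_prop :
        Continuous fun p : H × H × (Fin (n + 1) → H) =>
          (p.1, p.2.2 (Fin.last n), fun j : Fin n => p.2.2 j.castSucc))
    · exact (hΦ (n + 1)).comp (by fun_prop)

theorem continuous_ch_right555 (Φ : ℕ → H → ℂ) (δ : ℕ → H) (hΦ : ∀ j, Continuous (Φ j))
    (n : ℕ) (a b : H) : Continuous (fun y : Fin n → H => ch555 Φ δ n a b y) :=
  (continuous_ch555 Φ δ hΦ n).comp (by fun_prop : Continuous fun y : Fin n → H => (a, b, y))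

variable [SecondCountableTopology H] [MeasurableSpace H] [BorelSpace H]

/-- The peeling of the last variable. -/
theorem lintegral_peel_last555 (μ : Measure H) [SigmaFinite μ] (n : ℕ)
    (g : H × (Fin n → H) → ℝ≥0∞) :
    ∫⁻ y : Fin (n + 1) → H, g (y (Fin.last n), fun j => y j.castSucc)
        ∂(Measure.pi fun _ : Fin (n + 1) => μ)
      = ∫⁻ p : H × (Fin n → H), g p ∂(μ.prod (Measure.pi fun _ : Fin n => μ)) := by
  have hmp := measurePreserving_piFinSuccAbove (fun _ : Fin (n + 1) => μ) (Fin.last n)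
  have h := hmp.lintegral_comp_emb (MeasurableEquiv.measurableEmbedding _) g
  rw [← h]
  refine lintegral_congr fun y => ?_
  congr 2
  funext j
  first
    | (show y (Fin.castSucc j) = y ((Fin.last n).succAbove j); rw [Fin.succAbove_last])
    | (show y ((Fin.last n).succAbove j) = y (Fin.castSucc j); rw [Fin.succAbove_last])

theorem integral_peel_last555 (μ : Measure H) [SigmaFinite μ] (n : ℕ)
    (g : H × (Fin n → H) → ℂ) :
    ∫ y : Fin (n + 1) → H, g (y (Fin.last n), fun j => y j.castSucc)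
        ∂(Measure.pi fun _ : Fin (n + 1) => μ)
      = ∫ p : H × (Fin n → H), g p ∂(μ.prod (Measure.pi fun _ : Fin n => μ)) := by
  have hmp := measurePreserving_piFinSuccAbove (fun _ : Fin (n + 1) => μ) (Fin.last n)
  have h := hmp.integral_comp' (f := MeasurableEquiv.piFinSuccAbove (fun _ => H) (Fin.last n)) g
  rw [← h]
  refine integral_congr_ae (ae_of_all _ fun y => ?_)
  show g _ = g _
  congr 2
  funext j
  first
    | (show y (Fin.castSucc j) = y ((Fin.last n).succAbove j); rw [Fin.succAbove_last])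
    | (show y ((Fin.last n).succAbove j) = y (Fin.castSucc j); rw [Fin.succAbove_last])

theorem integral_peel_zero555 (μ : Measure H) [SigmaFinite μ] (n : ℕ)
    (g : H × (Fin n → H) → ℂ) :
    ∫ y : Fin (n + 1) → H, g (y 0, fun j => y j.succ)
        ∂(Measure.pi fun _ : Fin (n + 1) => μ)
      = ∫ p : H × (Fin n → H), g p ∂(μ.prod (Measure.pi fun _ : Fin n => μ)) := by
  have hmp := measurePreserving_piFinSuccAbove (fun _ : Fin (n + 1) => μ) 0
  have h := hmp.integral_comp' (f := MeasurableEquiv.piFinSuccAbove (fun _ => H) 0) g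
  rw [← h]
  refine integral_congr_ae (ae_of_all _ fun y => ?_)
  rfl

theorem integrable_peel_last555 (μ : Measure H) [SigmaFinite μ] (n : ℕ)
    (g : H × (Fin n → H) → ℂ)
    (h : Integrable (fun y : Fin (n + 1) → H => g (y (Fin.last n), fun j => y j.castSucc))
      (Measure.pi fun _ : Fin (n + 1) => μ)) :
    Integrable g (μ.prod (Measure.pi fun _ : Fin n => μ)) := by
  have hmp := measurePreserving_piFinSuccAbove (fun _ : Fin (n + 1) => μ) (Fin.last n)
  refine (hmp.integrable_comp_emb (MeasurableEquiv.measurableEmbedding _)).1 ?_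
  refine h.congr (ae_of_all _ fun y => ?_)
  show g _ = g _
  congr 2
  funext j
  first
    | (show y (Fin.castSucc j) = y ((Fin.last n).succAbove j); rw [Fin.succAbove_last])
    | (show y ((Fin.last n).succAbove j) = y (Fin.castSucc j); rw [Fin.succAbove_last])

theorem pi_univ_zero555 (μ : Measure H) [SigmaFinite μ] :
    (Measure.pi fun _ : Fin 0 => μ) Set.univ = 1 := by
  rw [Measure.pi_univ]
  simp

variable (μ : Measure H) [μ.IsMulLeftInvariant] [SigmaFinite μ] [IsFiniteMeasureOnCompacts μ]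

/-- The uniform bound for the `L¹`-norm of the chain. -/
theorem lintegral_ch_le555 (Φ : ℕ → H → ℂ) (δ : ℕ → H) (hΦ : ∀ j, Continuous (Φ j))
    (hΦs : ∀ j, HasCompactSupport (Φ j)) :
    ∀ n : ℕ, ∃ C : ℝ≥0∞, C < ⊤ ∧ ∀ a b : H,
      ∫⁻ y : Fin n → H, ‖ch555 Φ δ n a b y‖ₑ ∂(Measure.pi fun _ : Fin n => μ) ≤ C
  | 0 => by
    obtain ⟨M, hM⟩ := (hΦs 0).exists_bound_of_continuous (hΦ 0)
    refine ⟨ENNReal.ofReal M, ENNReal.ofReal_lt_top, fun a b => ?_⟩
    simp only [ch_zero555]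
    rw [lintegral_const, pi_univ_zero555, mul_one, ← ofReal_norm_eq_enorm]
    exact ENNReal.ofReal_le_ofReal (hM _)
  | n + 1 => by
    obtain ⟨C, hC, hCb⟩ := lintegral_ch_le555 Φ δ hΦ hΦs n
    obtain ⟨M, hM⟩ := (hΦs (n + 1)).exists_bound_of_continuous (hΦ (n + 1))
    refine ⟨C * (ENNReal.ofReal M * μ (tsupport (Φ (n + 1)))⁻¹), ?_, fun a b => ?_⟩
    · exact ENNReal.mul_lt_top hC
        (ENNReal.mul_lt_top ENNReal.ofReal_lt_top (hΦs (n + 1)).inv.measure_lt_top)
    · simp only [ch_succ555, enorm_mul]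
      rw [lintegral_peel_last555 μ n
        (fun p => ‖ch555 Φ δ n a p.1 p.2‖ₑ * ‖Φ (n + 1) (p.1⁻¹ * δ (n + 1) * b)‖ₑ)]
      have hc1 : Continuous (fun p : H × (Fin n → H) => ch555 Φ δ n a p.1 p.2) :=
        (continuous_ch555 Φ δ hΦ n).comp
          (by fun_prop : Continuous fun p : H × (Fin n → H) => (a, p.1, p.2))
      have hc2 : Continuous (fun p : H × (Fin n → H) => Φ (n + 1) (p.1⁻¹ * δ (n + 1) * b)) :=
        (hΦ (n + 1)).comp (by fun_prop)
      have hmeas : AEMeasurable (fun p : H × (Fin n → H) =>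
          ‖ch555 Φ δ n a p.1 p.2‖ₑ * ‖Φ (n + 1) (p.1⁻¹ * δ (n + 1) * b)‖ₑ)
          (μ.prod (Measure.pi fun _ : Fin n => μ)) :=
        (hc1.enorm.measurable.mul hc2.enorm.measurable).aemeasurable
      rw [lintegral_prod _ hmeas]
      set S : Set H := {x | x⁻¹ * δ (n + 1) * b ∈ tsupport (Φ (n + 1))} with hS
      have hSeq : S = (fun x => (δ (n + 1) * b)⁻¹ * x) ⁻¹' (tsupport (Φ (n + 1)))⁻¹ := by
        ext x
        simp only [hS, Set.mem_setOf_eq, Set.mem_preimage, Set.mem_inv, mul_inv_rev, inv_inv,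
          mul_assoc]
      have hSm : MeasurableSet S := by
        rw [hSeq]
        exact (measurable_const_mul _) (isClosed_tsupport _).inv.measurableSet
      have hSμ : μ S = μ (tsupport (Φ (n + 1)))⁻¹ := by
        rw [hSeq, measure_preimage_mul]
      calc ∫⁻ x, ∫⁻ y', ‖ch555 Φ δ n a x y'‖ₑ * ‖Φ (n + 1) (x⁻¹ * δ (n + 1) * b)‖ₑ
              ∂(Measure.pi fun _ : Fin n => μ) ∂μ
          ≤ ∫⁻ x, C * S.indicator (fun _ => ENNReal.ofReal M) x ∂μ := by
            refine lintegral_mono fun x => ?_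
            have hcx : Continuous (fun y' : Fin n → H => ch555 Φ δ n a x y') :=
              continuous_ch_right555 Φ δ hΦ n a x
            rw [lintegral_mul_const _ hcx.enorm.measurable]
            by_cases hx : x ∈ S
            · rw [Set.indicator_of_mem hx]
              refine mul_le_mul' (hCb a x) ?_
              rw [← ofReal_norm_eq_enorm]
              exact ENNReal.ofReal_le_ofReal (hM _)
            · have h0 : Φ (n + 1) (x⁻¹ * δ (n + 1) * b) = 0 :=
                image_eq_zero_of_notMem_tsupport hx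
              rw [h0, enorm_zero, mul_zero]
              exact zero_le
        _ = C * (ENNReal.ofReal M * μ (tsupport (Φ (n + 1)))⁻¹) := by
            rw [lintegral_const_mul' _ _ hC.ne, lintegral_indicator_const hSm, hSμ]

theorem integrable_ch555 (Φ : ℕ → H → ℂ) (δ : ℕ → H) (hΦ : ∀ j, Continuous (Φ j))
    (hΦs : ∀ j, HasCompactSupport (Φ j)) (n : ℕ) (a b : H) :
    Integrable (fun y : Fin n → H => ch555 Φ δ n a b y) (Measure.pi fun _ : Fin n => μ) := by
  obtain ⟨C, hC, hCb⟩ := lintegral_ch_le555 μ Φ δ hΦ hΦs n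
  exact ⟨(continuous_ch_right555 Φ δ hΦ n a b).aestronglyMeasurable,
    lt_of_le_of_lt (hCb a b) hC⟩

/-- **The inner integral is the iterated integral.** -/
theorem integral_ch555 (Φ : ℕ → H → ℂ) (δ : ℕ → H) (hΦ : ∀ j, Continuous (Φ j))
    (hΦs : ∀ j, HasCompactSupport (Φ j)) :
    ∀ (n : ℕ) (a b : H),
      ∫ y : Fin n → H, ch555 Φ δ n a b y ∂(Measure.pi fun _ : Fin n => μ)
        = iterL159 μ Φ δ n a b
  | 0, a, b => by
    simp only [ch_zero555]
    rw [integral_const]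
    simp only [Measure.real, pi_univ_zero555, ENNReal.toReal_one, one_smul]
    rfl
  | n + 1, a, b => by
    have hI := integrable_ch555 μ Φ δ hΦ hΦs (n + 1) a b
    simp only [ch_succ555] at hI ⊢
    have hI' := integrable_peel_last555 μ n
      (fun p => ch555 Φ δ n a p.1 p.2 * Φ (n + 1) (p.1⁻¹ * δ (n + 1) * b)) hI
    rw [integral_peel_last555 μ n
      (fun p => ch555 Φ δ n a p.1 p.2 * Φ (n + 1) (p.1⁻¹ * δ (n + 1) * b)),
      integral_prod _ hI']
    show _ = ∫ x, iterL159 μ Φ δ n a x * Φ (n + 1) (x⁻¹ * δ (n + 1) * b) ∂μ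
    refine integral_congr_ae (ae_of_all _ fun x => ?_)
    show ∫ y', ch555 Φ δ n a x y' * Φ (n + 1) (x⁻¹ * δ (n + 1) * b)
        ∂(Measure.pi fun _ : Fin n => μ) = _
    rw [integral_mul_const, integral_ch555 Φ δ hΦ hΦs n a x]

/-- **FUBINI FOR THE SPLIT INTEGRAL.** -/
theorem splitInt_eq555 (n : ℕ) (Φ : ℕ → H → ℂ) (δ : ℕ → H) (hΦ : ∀ j, Continuous (Φ j))
    (hΦs : ∀ j, HasCompactSupport (Φ j)) (β : H → ℝ) (hβ : Continuous β) (hβ0 : ∀ x, 0 ≤ β x)
    (hint : ∀ K : Set H, IsCompact K →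
      Integrable (fun a => K.indicator (fun _ => (1 : ℝ)) (a⁻¹ * prodFrom159 δ (n + 1) 0 * a)
        * β a) μ) :
    ∫ y : Fin (n + 1) → H,
        (∏ j : Fin (n + 1), Φ j ((y j)⁻¹ * δ j * y (cycSucc340 j))) * ((β (y 0) : ℝ) : ℂ)
        ∂(Measure.pi fun _ : Fin (n + 1) => μ)
      = ∫ a, convL159 μ Φ n (a⁻¹ * prodFrom159 δ (n + 1) 0 * a) * ((β a : ℝ) : ℂ) ∂μ := by
  simp only [cyc_prod_eq_ch555]
  obtain ⟨C, hC, hCb⟩ := lintegral_ch_le555 μ Φ δ hΦ hΦs n
  have hcont : Continuous (fun p : H × (Fin n → H) =>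
      ch555 Φ δ n p.1 p.1 p.2 * ((β p.1 : ℝ) : ℂ)) := by
    refine Continuous.mul ?_ ?_
    · exact (continuous_ch555 Φ δ hΦ n).comp
        (by fun_prop : Continuous fun p : H × (Fin n → H) => (p.1, p.1, p.2))
    · exact Complex.continuous_ofReal.comp (hβ.comp continuous_fst)
  have hK := isCompact_suppProd555 Φ hΦs n
  have hI : Integrable (fun p : H × (Fin n → H) =>
      ch555 Φ δ n p.1 p.1 p.2 * ((β p.1 : ℝ) : ℂ))
      (μ.prod (Measure.pi fun _ : Fin n => μ)) := by
    refine (integrable_prod_iff hcont.aestronglyMeasurable).2 ⟨ae_of_all _ fun a => ?_, ?_⟩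
    · show Integrable (fun y : Fin n → H => ch555 Φ δ n a a y * ((β a : ℝ) : ℂ)) _
      exact (integrable_ch555 μ Φ δ hΦ hΦs n a a).mul_const _
    · refine Integrable.mono' ((hint _ hK).const_mul C.toReal)
        hcont.aestronglyMeasurable.norm.integral_prod_right' (ae_of_all _ fun a => ?_)
      have hnn : 0 ≤ ∫ y : Fin n → H, ‖ch555 Φ δ n a a y * ((β a : ℝ) : ℂ)‖
          ∂(Measure.pi fun _ : Fin n => μ) := integral_nonneg fun _ => norm_nonneg _
      rw [Real.norm_of_nonneg hnn]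
      have e1 : ∀ y : Fin n → H, ‖ch555 Φ δ n a a y * ((β a : ℝ) : ℂ)‖
          = ‖ch555 Φ δ n a a y‖ * β a := by
        intro y
        rw [norm_mul, Complex.norm_real, Real.norm_of_nonneg (hβ0 a)]
      simp only [e1]
      rw [integral_mul_const]
      by_cases ha : a⁻¹ * prodFrom159 δ (n + 1) 0 * a ∈ suppProd555 Φ n
      · rw [Set.indicator_of_mem ha, one_mul]
        refine mul_le_mul_of_nonneg_right ?_ (hβ0 a)
        rw [integral_norm_eq_lintegral_enorm
          (continuous_ch_right555 Φ δ hΦ n a a).aestronglyMeasurable]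
        exact ENNReal.toReal_mono hC.ne (hCb a a)
      · have h0 : ∀ y : Fin n → H, ch555 Φ δ n a a y = 0 := by
          intro y
          by_contra hne
          exact ha (mem_suppProd_of_ch_ne555 Φ δ n a a y hne)
        simp [h0, Set.indicator_of_notMem ha]
  rw [integral_peel_zero555 μ n (fun p => ch555 Φ δ n p.1 p.1 p.2 * ((β p.1 : ℝ) : ℂ)),
    integral_prod _ hI]
  refine integral_congr_ae (ae_of_all _ fun a => ?_)
  show ∫ y', ch555 Φ δ n a a y' * ((β a : ℝ) : ℂ) ∂(Measure.pi fun _ : Fin n => μ) = _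
  rw [integral_mul_const, integral_ch555 μ Φ δ hΦ hΦs n a a, iterL_eq159]

end Top

/-! ## 3. The form of `H340.splitInt340` (Borel σ-algebra) -/

section Split

variable {H : Type} [Group H] [TopologicalSpace H] [IsTopologicalGroup H]
  [SecondCountableTopology H]

/-- **`H340.splitInt340` is the orbital integral of the convolution.** -/
theorem splitInt340_eq555 (l : ℕ) (hl : 0 < l) (μ : @Measure H (borel H))
    (hμ1 : @Measure.IsMulLeftInvariant H (borel H) _ μ)
    (hμ2 : @SigmaFinite H (borel H) μ)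
    (hμ3 : @IsFiniteMeasureOnCompacts H (borel H) _ μ)
    (Φ : ℕ → H → ℂ) (δ : ℕ → H) (hΦ : ∀ j, Continuous (Φ j))
    (hΦs : ∀ j, HasCompactSupport (Φ j)) (β : H → ℝ) (hβ : Continuous β) (hβ0 : ∀ x, 0 ≤ β x)
    (hint : ∀ K : Set H, IsCompact K →
      Integrable
        (fun a => K.indicator (fun _ => (1 : ℝ)) (a⁻¹ * prodFrom159 δ l 0 * a) * β a) μ) :
    splitInt340 l hl μ β Φ δ
      = ∫ a, @convL159 H _ (borel H) μ Φ (l - 1) (a⁻¹ * prodFrom159 δ l 0 * a)
            * ((β a : ℝ) : ℂ) ∂μ := by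
  letI : MeasurableSpace H := borel H
  haveI : BorelSpace H := ⟨rfl⟩
  obtain ⟨n, rfl⟩ : ∃ n, l = n + 1 := ⟨l - 1, by omega⟩
  exact splitInt_eq555 μ n Φ δ hΦ hΦs β hβ hβ0 hint

end Split

end Fermat.Agent.LT.T7.H555

end
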