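import Mathlib
import Fermat.Agent.LT.T7.H558.SigmaLoc
import Fermat.Agent.LT.T7.H159.SplitIntL
import Fermat.Agent.LT.T7.H305.MatchCut

/-!
# Row LT, tower T7, leaf C2.7.13.3 `LocEqSplitC340` / `LocEqSplitC305b` (helper555), part A:
# THE NORM AT A SPLIT PLACE, IN THE COORDINATES OF `K_v`

OFF-MAIN.  `w 0, w 1, …` places of `K'` over `v` with `w j = σ(w (j+1))`, `i j : K_v ≃ K'_{w j}`
valuation preserving identifications compatible with `K → K'`, `N δ = γ`.  Then

    δ_0 δ_1 ⋯ δ_{l-1} = γ_v,    δ_j = i_j⁻¹(δ_{w j})         (`prodFrom_eq_locG555`).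

Proof: `i_j⁻¹ ∘ s_j ∘ i_{j+1}` (`s_j : K'_{w (j+1)} ≃ K'_{w j}` the local form of `σ`,
`SigmaLocC305` closed by helper558) is a valuation preserving ring endomorphism of `K_v` which
is the identity on the dense subfield `K`, hence the identity.
-/

set_option autoImplicit false

open IsDedekindDomain NumberField Filter Topology

noncomputable section

namespace Fermat.Agent.LT.T7.H555

open Fermat.Agent.LT.H556 Fermat.Agent.LT.H556.A0 Fermat.Agent.LT Fermat.Agent.LT.T7
open Fermat.Agent.LT.T7.H305 Fermat.Agent.LT.T7.H159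

section OneField

variable {K : Type} [Field K] [NumberField K]

/-- A valuation preserving ring endomorphism of `K_v` which is the identity on `K` is the
identity. -/
theorem eq_self_of_val555 (v : HeightOneSpectrum (𝓞 K))
    (τ : v.adicCompletion K →+* v.adicCompletion K)
    (hτ : ∀ x : v.adicCompletion K, Valued.v (τ x) = Valued.v x)
    (hK : ∀ a : K, τ (algebraMap K (v.adicCompletion K) a) = algebraMap K (v.adicCompletion K) a)
    (x : v.adicCompletion K) : τ x = x := by
  by_contra hne
  have hpos : Valued.v (τ x - x) ≠ 0 := by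
    intro h0
    rw [map_eq_zero, sub_eq_zero] at h0
    exact hne h0
  have hopen : IsOpen {y : v.adicCompletion K | Valued.v (y - x) < Valued.v (τ x - x)} := by
    have h := Valued.isOpen_ball (v.adicCompletion K)
      (r := (Valued.v : Valuation (v.adicCompletion K) (WithZero (Multiplicative ℤ))).restrict
        (τ x - x))
    have hc' : Continuous fun y : v.adicCompletion K => y - x :=
      continuous_id.sub continuous_const
    have := h.preimage hc'
    convert this using 1
    ext y
    simp only [Set.mem_preimage]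
    exact (Valuation.restrict_lt_iff
      (v := (Valued.v : Valuation (v.adicCompletion K) (WithZero (Multiplicative ℤ))))).symm
  have hx : x ∈ {y : v.adicCompletion K | Valued.v (y - x) < Valued.v (τ x - x)} := by
    show Valued.v (x - x) < Valued.v (τ x - x)
    rw [sub_self, map_zero]
    exact zero_lt_iff.2 hpos
  obtain ⟨a, ha⟩ := DenseRange.exists_mem_open (HeightOneSpectrum.denseRange_algebraMap K v)
    hopen ⟨x, hx⟩
  have ha' : Valued.v (algebraMap K (v.adicCompletion K) a - x) < Valued.v (τ x - x) := ha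
  have e : τ x - x = τ (x - algebraMap K _ a) - (x - algebraMap K _ a) := by
    rw [map_sub, hK]
    ring
  have hle : Valued.v (τ x - x) ≤ Valued.v (x - algebraMap K (v.adicCompletion K) a) := by
    rw [e]
    refine (Valuation.map_sub _ _ _).trans ?_
    rw [hτ, max_self]
  have hsw : Valued.v (x - algebraMap K (v.adicCompletion K) a)
      = Valued.v (algebraMap K (v.adicCompletion K) a - x) := Valuation.map_sub_swap _ _ _
  rw [hsw] at hle
  exact absurd (lt_of_le_of_lt hle ha') (lt_irrefl _)

end OneField

section TwoFields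

variable {K K' : Type} [Field K] [NumberField K] [Field K'] [NumberField K'] [Algebra K K']

theorem sigma_fix555 (D : CompData K K') (hD : IsCompData D) (a : K) :
    D.s.σ (algebraMap K K' a) = algebraMap K K' a :=
  (hD.cyc.fixed _).1 ((hD.base _).2 ⟨a, rfl⟩)

theorem val_symm555 {k k' : Type} [Field k] [Field k'] [Valued k (WithZero (Multiplicative ℤ))]
    [Valued k' (WithZero (Multiplicative ℤ))] (i : k ≃+* k')
    (hval : ∀ x : k, Valued.v (i x) = Valued.v x) (z : k') :
    Valued.v (i.symm z) = Valued.v z := by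
  rw [← hval (i.symm z), RingEquiv.apply_symm_apply]

/-- `i_j⁻¹ ∘ σ = i_{j+1}⁻¹` on `K'`. -/
theorem symm_sigma555 (D : CompData K K') (hD : IsCompData D)
    (v : HeightOneSpectrum (𝓞 K)) (w : ℕ → HeightOneSpectrum (𝓞 K'))
    (i : ∀ j : ℕ, v.adicCompletion K ≃+* (w j).adicCompletion K')
    (hrel : ∀ j : ℕ, T5.PlaceRel D.s (w (j + 1)) (w j))
    (hi : ∀ (j : ℕ) (x : K), i j (algebraMap K (v.adicCompletion K) x)
      = algebraMap K' ((w j).adicCompletion K') (algebraMap K K' x))
    (hval : ∀ (j : ℕ) (x : v.adicCompletion K), Valued.v (i j x) = Valued.v x)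
    (j : ℕ) (y : K') :
    (i j).symm (algebraMap K' ((w j).adicCompletion K') (D.s.σ y))
      = (i (j + 1)).symm (algebraMap K' ((w (j + 1)).adicCompletion K') y) := by
  obtain ⟨sw, hsw1, hsw2, _⟩ := (H558.sigmaLocC558 (K := K') D.s).1 (w (j + 1)) (w j) (hrel j)
  set τ : v.adicCompletion K →+* v.adicCompletion K :=
    ((i j).symm : (w j).adicCompletion K' →+* v.adicCompletion K).comp
      ((sw : (w (j + 1)).adicCompletion K' →+* (w j).adicCompletion K').comp
        ((i (j + 1) : v.adicCompletion K ≃+* _) :
          v.adicCompletion K →+* (w (j + 1)).adicCompletion K')) with hτ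
  have hτv : ∀ x : v.adicCompletion K, Valued.v (τ x) = Valued.v x := by
    intro x
    show Valued.v ((i j).symm (sw (i (j + 1) x))) = Valued.v x
    rw [val_symm555 (i j) (hval j), hsw2, hval]
  have hτK : ∀ a : K, τ (algebraMap K (v.adicCompletion K) a)
      = algebraMap K (v.adicCompletion K) a := by
    intro a
    show (i j).symm (sw (i (j + 1) (algebraMap K (v.adicCompletion K) a))) = _
    rw [hi, hsw1, sigma_fix555 D hD, RingEquiv.symm_apply_eq, hi]
  have h := eq_self_of_val555 v τ hτv hτK
    ((i (j + 1)).symm (algebraMap K' ((w (j + 1)).adicCompletion K') y))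
  have h' : (i j).symm (sw (i (j + 1)
      ((i (j + 1)).symm (algebraMap K' ((w (j + 1)).adicCompletion K') y))))
      = (i (j + 1)).symm (algebraMap K' ((w (j + 1)).adicCompletion K') y) := h
  rw [RingEquiv.apply_symm_apply, hsw1] at h'
  exact h'

/-- The window products of the `δ_j = i_j⁻¹(δ_{w j})`. -/
theorem map_symm_locG_normUpTo555 (D : CompData K K') (hD : IsCompData D)
    (v : HeightOneSpectrum (𝓞 K)) (w : ℕ → HeightOneSpectrum (𝓞 K'))
    (i : ∀ j : ℕ, v.adicCompletion K ≃+* (w j).adicCompletion K')
    (hrel : ∀ j : ℕ, T5.PlaceRel D.s (w (j + 1)) (w j))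
    (hi : ∀ (j : ℕ) (x : K), i j (algebraMap K (v.adicCompletion K) x)
      = algebraMap K' ((w j).adicCompletion K') (algebraMap K K' x))
    (hval : ∀ (j : ℕ) (x : v.adicCompletion K), Valued.v (i j x) = Valued.v x)
    (δ : GL (Fin 2) K') :
    ∀ n j : ℕ,
      Matrix.GeneralLinearGroup.map
          (((i j).symm : (w j).adicCompletion K' ≃+* _) :
            (w j).adicCompletion K' →+* v.adicCompletion K)
          (locG305 (w j) (D.s.normUpTo n δ))
        = prodFrom159 (fun j => Matrix.GeneralLinearGroup.map
            (((i j).symm : (w j).adicCompletion K' ≃+* _) :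
              (w j).adicCompletion K' →+* v.adicCompletion K) (locG305 (w j) δ)) n j
  | 0, j => by
    show Matrix.GeneralLinearGroup.map _ (locG305 (w j) 1) = 1
    rw [map_one, map_one]
  | n + 1, j => by
    have ih := map_symm_locG_normUpTo555 D hD v w i hrel hi hval δ n (j + 1)
    show Matrix.GeneralLinearGroup.map _ (locG305 (w j) (δ * D.s.onRat (D.s.normUpTo n δ)))
      = Matrix.GeneralLinearGroup.map _ (locG305 (w j) δ) * prodFrom159 _ n (j + 1)
    rw [map_mul, map_mul, ← ih]
    congr 1
    apply Matrix.GeneralLinearGroup.ext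
    intro a b
    exact symm_sigma555 D hD v w i hrel hi hval j _

/-- **The norm in the coordinates of `K_v`.** -/
theorem prodFrom_eq_locG555 (D : CompData K K') (hD : IsCompData D)
    (v : HeightOneSpectrum (𝓞 K)) (w : ℕ → HeightOneSpectrum (𝓞 K'))
    (i : ∀ j : ℕ, v.adicCompletion K ≃+* (w j).adicCompletion K')
    (hrel : ∀ j : ℕ, T5.PlaceRel D.s (w (j + 1)) (w j))
    (hi : ∀ (j : ℕ) (x : K), i j (algebraMap K (v.adicCompletion K) x)
      = algebraMap K' ((w j).adicCompletion K') (algebraMap K K' x))
    (hval : ∀ (j : ℕ) (x : v.adicCompletion K), Valued.v (i j x) = Valued.v x)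
    (δ : GL (Fin 2) K') (γ : GL (Fin 2) K) (l : ℕ)
    (hN : D.s.normUpTo l δ = Matrix.GeneralLinearGroup.map (algebraMap K K') γ) :
    prodFrom159 (fun j => Matrix.GeneralLinearGroup.map
        (((i j).symm : (w j).adicCompletion K' ≃+* _) :
          (w j).adicCompletion K' →+* v.adicCompletion K) (locG305 (w j) δ)) l 0
      = locG305 v γ := by
  rw [← map_symm_locG_normUpTo555 D hD v w i hrel hi hval δ l 0, hN]
  apply Matrix.GeneralLinearGroup.ext
  intro a b
  show (i 0).symm (algebraMap K' ((w 0).adicCompletion K') (algebraMap K K' (γ a b)))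
    = algebraMap K (v.adicCompletion K) (γ a b)
  rw [RingEquiv.symm_apply_eq, hi]

end TwoFields

end Fermat.Agent.LT.T7.H555

end
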