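import Mathlib
import Fermat.Agent.LT.T6.H846.OrbSumInt
import Fermat.Agent.LT.T6.H420.GLTop

/-!
# Row LT, tower T7, leaf C2.7.13.3 `LocEqSplitC340` / `LocEqSplitC305b` (helper555), part B:
# CONVERGENCE OF THE LOCAL ORBITAL INTEGRALS AT A REGULAR ELEMENT, topology of Hecke functions

OFF-MAIN.  Abstract part (the frame of helper846, `T6/H846`): if `φ` has an orbit sum at `δ`
then `{z : φ(z⁻¹ δ s(z)) ≠ 0}` is contained in a measurable set on which the cut-off function
`β` is integrable (`Frame846.exists_integrableOn555`; Weil's formula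
`H846.lintegral_doubleCoset846`); the indicator function of `U K U` (`dblInd555`) is
bi-invariant with finite support modulo `U` (the input of `T6.OrbSumExC`).  Bi-`U`-invariant
functions with finite support modulo `U` are continuous with compact support (`U` open and
compact).
-/

set_option autoImplicit false
set_option linter.unusedSectionVars false

open MeasureTheory Topology
open scoped ENNReal Pointwise

noncomputable section

namespace Fermat.Agent.LT.T7.H555

open Fermat.Agent.LT Fermat.Agent.LT.T6 Fermat.Agent.LT.T6.H846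

/-! ## 1. The abstract frame -/

section Abstract

variable {G H : Type} [Group G] [Group H] {s : G →* G} {δ : G} {ι : H →* G}
  {U : Subgroup G} {Up : G → Prop} {C : G → G → Prop}
  [TopologicalSpace G] [IsTopologicalGroup G] [SecondCountableTopology G]
  [MeasurableSpace G] [BorelSpace G]
  [TopologicalSpace H] [IsTopologicalGroup H] [SecondCountableTopology H]
  [MeasurableSpace H] [BorelSpace H]

theorem exists_integrableOn555 (F : Frame846 s δ ι U Up C) (hι : Continuous ι)
    (hU : IsOpen (U : Set G))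
    (μ : Measure G) [μ.IsMulLeftInvariant] (hμU : μ (U : Set G) = 1)
    (ν : Measure H) [ν.IsMulLeftInvariant] [ν.IsOpenPosMeasure]
    (hT : ν {t : H | C δ (ι t)} = 1)
    (φ : G → ℂ) (c : ℂ) (hc : IsOrbSumGen s Up C φ δ c)
    (β : G → ℝ) (hβc : Continuous β) (hβ0 : ∀ x, 0 ≤ β x)
    (hβ1 : ∀ x : G, ∫ t : H, β (ι t * x) ∂ν = 1) :
    ∃ E : Set G, MeasurableSet E ∧ IntegrableOn β E μ ∧
      ∀ z : G, φ (z⁻¹ * δ * s z) ≠ 0 → z ∈ E := by
  classical
  haveI : IsLocallyFiniteMeasure μ := locallyFinite_G846 U hU μ hμU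
  haveI : IsLocallyFiniteMeasure ν := F.locallyFinite_H hι hU ν hT
  obtain ⟨R, hR1, _, hR3, _⟩ := hc
  choose! X hXeq using hR1
  set D : G → Set G := fun y => dcoset846 ι U (X y) with hD
  have hDm : ∀ y, MeasurableSet (D y) := fun y => (isOpen_dcoset846 ι U hU _).measurableSet
  have hF2 : ∀ z, φ (z⁻¹ * δ * s z) ≠ 0 → ∃ y ∈ R, z ∈ D y := by
    intro z hz
    obtain ⟨y', hy', u, hu, he⟩ := hR3 _ ⟨z, rfl⟩ hz
    refine ⟨y', hy', F.mem_dcoset_of_eq (X y') z u ((F.up u).1 hu) ?_⟩
    rw [he, ← hXeq y' hy']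
  set βe : G → ℝ≥0∞ := fun z => ENNReal.ofReal (β z) with hβe
  have hβem : Measurable βe := ENNReal.measurable_ofReal.comp hβc.measurable
  have hβe1 : ∀ z, ∫⁻ t : H, βe (ι t * z) ∂ν = 1 := by
    intro z
    have h := integral_eq_lintegral_of_nonneg_ae (μ := ν) (f := fun t : H => β (ι t * z))
      (Filter.Eventually.of_forall fun t => hβ0 _)
      (hβc.comp (hι.mul continuous_const)).aestronglyMeasurable
    rw [hβ1 z] at h
    exact (ENNReal.toReal_eq_one_iff _).1 h.symm
  have hInt : ∀ y ∈ R, IntegrableOn β (D y) μ := by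
    intro y _
    refine ⟨hβc.aestronglyMeasurable, ?_⟩
    rw [hasFiniteIntegral_iff_ofReal (Filter.Eventually.of_forall fun z => hβ0 z)]
    have h1 := lintegral_doubleCoset846 μ ν ι hι U hU hμU βe hβem hβe1 (X y)
    have hpos := stab_pos846 (U := U) ν hι hU (X y)
    by_contra htop
    rw [not_lt, top_le_iff] at htop
    have htop' : ∫⁻ z in D y, βe z ∂μ = ⊤ := htop
    rw [htop', ENNReal.mul_top hpos.ne'] at h1
    exact ENNReal.top_ne_one h1
  refine ⟨⋃ y ∈ R, D y, R.measurableSet_biUnion fun y _ => hDm y, ?_, ?_⟩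
  · exact (integrableOn_finset_iUnion).2 hInt
  · intro z hz
    obtain ⟨y, hy, hzy⟩ := hF2 z hz
    exact Set.mem_biUnion hy hzy

end Abstract

/-! ## 2. Hecke functions are continuous with compact support -/

section Hecke

variable {G : Type} [Group G] [TopologicalSpace G] [IsTopologicalGroup G]

theorem continuous_of_rightInv555 (U : Subgroup G) (hU : IsOpen (U : Set G)) (φ : G → ℂ)
    (hφ : ∀ g u : G, u ∈ U → φ (g * u) = φ g) : Continuous φ := by
  refine IsLocallyConstant.continuous ((IsLocallyConstant.iff_exists_open φ).2 fun g => ?_)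
  refine ⟨{z | g⁻¹ * z ∈ U}, isOpen_leftCoset846 U hU g, ?_, fun z hz => ?_⟩
  · show g⁻¹ * g ∈ U
    rw [inv_mul_cancel]
    exact U.one_mem
  · have := hφ g (g⁻¹ * z) hz
    rwa [mul_inv_cancel_left] at this

theorem hasCompactSupport_of_finSupp555 [T2Space G] (U : Subgroup G)
    (hUc : IsCompact (U : Set G)) (φ : G → ℂ)
    (hφ : ∃ F : Finset G, ∀ g : G, φ g ≠ 0 → ∃ x ∈ F, ∃ u : G, u ∈ U ∧ g = x * u) :
    HasCompactSupport φ := by
  obtain ⟨F, hF⟩ := hφ
  refine HasCompactSupport.intro (K := ⋃ x ∈ F, (fun u => x * u) '' (U : Set G)) ?_ ?_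
  · exact F.isCompact_biUnion fun x _ => hUc.image (continuous_const.mul continuous_id)
  · intro g hg
    by_contra hne
    obtain ⟨x, hx, u, hu, rfl⟩ := hF g hne
    exact hg (Set.mem_biUnion hx ⟨u, hu, rfl⟩)

/-- The indicator function of `U K U`. -/
def dblInd555 (U : Subgroup G) (K : Set G) : G → ℂ :=
  open Classical in fun g => if g ∈ (U : Set G) * K * (U : Set G) then 1 else 0

theorem dblInd_biInv555 (U : Subgroup G) (K : Set G) (u u' g : G) (hu : u ∈ U) (hu' : u' ∈ U) :
    dblInd555 U K (u * g * u') = dblInd555 U K g := by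
  classical
  have key : u * g * u' ∈ (U : Set G) * K * (U : Set G) ↔ g ∈ (U : Set G) * K * (U : Set G) := by
    constructor
    · rintro ⟨a, ⟨b, hb, k, hk, rfl⟩, c, hc, h⟩
      refine ⟨u⁻¹ * b * k, ⟨u⁻¹ * b, U.mul_mem (U.inv_mem hu) hb, k, hk, rfl⟩, c * u'⁻¹,
        U.mul_mem hc (U.inv_mem hu'), ?_⟩
      have h' : b * k * c = u * g * u' := h
      calc u⁻¹ * b * k * (c * u'⁻¹) = u⁻¹ * (b * k * c) * u'⁻¹ := by group
        _ = g := by rw [h']; group
    · rintro ⟨a, ⟨b, hb, k, hk, rfl⟩, c, hc, h⟩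
      refine ⟨u * b * k, ⟨u * b, U.mul_mem hu hb, k, hk, rfl⟩, c * u', U.mul_mem hc hu', ?_⟩
      have h' : b * k * c = g := h
      calc u * b * k * (c * u') = u * (b * k * c) * u' := by group
        _ = u * g * u' := by rw [h']
  unfold dblInd555
  simp only [key]

theorem dblInd_of_mem555 (U : Subgroup G) (K : Set G) (g : G) (hg : g ∈ K) :
    dblInd555 U K g = 1 := by
  classical
  unfold dblInd555
  rw [if_pos]
  exact ⟨1 * g, ⟨1, U.one_mem, g, hg, rfl⟩, 1, U.one_mem, by simp⟩

theorem dblInd_finSupp555 (U : Subgroup G) (hU : IsOpen (U : Set G))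
    (hUc : IsCompact (U : Set G)) (K : Set G) (hK : IsCompact K) :
    ∃ F : Finset G, ∀ g : G, dblInd555 U K g ≠ 0 → ∃ x ∈ F, ∃ u : G, u ∈ U ∧ g = x * u := by
  classical
  have hc : IsCompact ((U : Set G) * K * (U : Set G)) := (hUc.mul hK).mul hUc
  obtain ⟨t, _, ht⟩ := hc.elim_nhds_subcover (fun x => {z | x⁻¹ * z ∈ U}) (fun x _ =>
    (isOpen_leftCoset846 U hU x).mem_nhds (by
      show x⁻¹ * x ∈ U
      rw [inv_mul_cancel]
      exact U.one_mem))
  refine ⟨t, fun g hg => ?_⟩
  have hmem : g ∈ (U : Set G) * K * (U : Set G) := by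
    by_contra hn
    apply hg
    unfold dblInd555
    rw [if_neg hn]
  obtain ⟨x, hx, hgx⟩ := Set.mem_iUnion₂.1 (ht hmem)
  exact ⟨x, hx, x⁻¹ * g, hgx, by rw [mul_inv_cancel_left]⟩

end Hecke

end Fermat.Agent.LT.T7.H555

end
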