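import Mathlib
import Fermat.Agent.LT.T7.H305.Match893Spec
import Fermat.Agent.LT.T7.H584.ConvSumInt
import Fermat.Agent.LT.T7.H194.Orb.IndIntCut
import Fermat.Agent.LT.T7.H555.ChainFubini
import Fermat.Agent.LT.T7.H555.SplitAlg
import Fermat.Agent.LT.T7.H555.SplitIntbl
import Fermat.Agent.LT.T7.H555.LocEqInert

/-!
# Row LT, tower T7, leaves C2.7.13.3b `LocEqSplitC305b` (helper305, `Match893Spec.lean`) and
# C2.7.13.3 `LocEqSplitC340` (helper340, `FactUpSpec.lean`) (helper555)

OFF-MAIN.  `locEqSplitC305b555 K K' : H305.LocEqSplitC305b K K'` and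
`locEqSplitC340_555 K K' : H340.LocEqSplitC340 K K'`, VERBATIM, unconditional.

Proof.  `v` split, `w j` the places over `v`, `i j : K_v ≃ K'_{w j}`, `φ_j = φ₀_{w j} ∘ i_j`,
`δ_j = i_j⁻¹(δ_{w j})`.

* Fubini (`splitInt340_eq555`, `ChainFubini.lean`): the split integral is
  `∫ (φ_0 * ⋯ * φ_{l-1})(a⁻¹ P a) β(a) dμ(a)`, `P = δ_0 ⋯ δ_{l-1}`.  The `φ_j` are bi-`U(m_v)`-
  invariant with finite support modulo `U(m_v)` (`inv_up`, the levels agree, `i_j` preserves the
  valuation), hence continuous with compact support (`SplitIntbl.lean`; `K_v` is a local field,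
  `T6.InstLocalC`); integrability = convergence of the orbital integral of an indicator function
  at the regular element `γ_v` (helper194 `hint_locCut194`).
* `P = γ_v` (`prodFrom_eq_locG555`, `SplitAlg.lean`; `SigmaLocC305` closed by helper558).
* `φ_0 * ⋯ * φ_{l-1} = f₀_v` (the convolution identity of the local hypotheses;
  helper584 `convL_eq_of_isConvProd584`, `μ_v(U(m_v)) = 1`).
-/

set_option autoImplicit false

open AutomorphicForm IsDedekindDomain NumberField MeasureTheory
open scoped ComplexConjugate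

noncomputable section

namespace Fermat.Agent.LT.T7.H555

open Fermat.Agent.LT.H556 Fermat.Agent.LT.H556.A0 Fermat.Agent.LT Fermat.Agent.LT.T7
open Fermat.Agent.LT.T7.H305 Fermat.Agent.LT.T7.H340 Fermat.Agent.LT.T7.H159

/-! ## 1. `U(n)` under a valuation preserving isomorphism -/

section Transfer

variable {k k' : Type} [Field k] [Field k'] [Valued k T6.Γ₀] [Valued k' T6.Γ₀]

theorem inU_map555 (i : k →+* k') (hval : ∀ x : k, Valued.v (i x) = Valued.v x) (n : ℕ)
    (g : GL (Fin 2) k) (hg : T6.InU n g) :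
    T6.InU n (Matrix.GeneralLinearGroup.map i g) := by
  have hone : ∀ a b : Fin 2, (1 : Matrix (Fin 2) (Fin 2) k') a b
      = i ((1 : Matrix (Fin 2) (Fin 2) k) a b) := by
    intro a b
    by_cases hab : a = b
    · subst hab
      simp
    · simp [Matrix.one_apply_ne hab]
  intro a b
  obtain ⟨h1, h2⟩ := hg a b
  refine ⟨?_, ?_⟩
  · have e : ((Matrix.GeneralLinearGroup.map i g : GL (Fin 2) k') :
        Matrix (Fin 2) (Fin 2) k') a b = i ((g : Matrix (Fin 2) (Fin 2) k) a b) := rfl
    rw [e, hone, ← map_sub, hval]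
    exact h1
  · have e : (((Matrix.GeneralLinearGroup.map i g)⁻¹ : GL (Fin 2) k') :
        Matrix (Fin 2) (Fin 2) k') a b
        = i (((g⁻¹ : GL (Fin 2) k) : Matrix (Fin 2) (Fin 2) k) a b) := by
      rw [← map_inv]
      rfl
    rw [e, hone, ← map_sub, hval]
    exact h2

theorem map_symm_map555 (i : k ≃+* k') (g : GL (Fin 2) k) :
    Matrix.GeneralLinearGroup.map ((i.symm : k' ≃+* k) : k' →+* k)
      (Matrix.GeneralLinearGroup.map ((i : k ≃+* k') : k →+* k') g) = g := by
  apply Matrix.GeneralLinearGroup.ext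
  intro a b
  exact i.symm_apply_apply _

theorem biInv_comp555 (i : k ≃+* k') (hval : ∀ x : k, Valued.v (i x) = Valued.v x) (n : ℕ)
    (φ : GL (Fin 2) k' → ℂ) (hφ : T6.IsBiInv (T6.InU n) φ) :
    T6.IsBiInv (T6.InU n)
      (fun g => φ (Matrix.GeneralLinearGroup.map ((i : k ≃+* k') : k →+* k') g)) := by
  intro u u' g hu hu'
  show φ (Matrix.GeneralLinearGroup.map ((i : k ≃+* k') : k →+* k') (u * g * u')) = _
  rw [map_mul, map_mul]
  exact hφ _ _ _ (inU_map555 _ hval n u hu) (inU_map555 _ hval n u' hu')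

theorem finSupp_comp555 (i : k ≃+* k') (hval : ∀ x : k, Valued.v (i x) = Valued.v x) (n : ℕ)
    (φ : GL (Fin 2) k' → ℂ) (hφ : T6.HasFinSupp (T6.InU n) φ) :
    T6.HasFinSupp (T6.InU n)
      (fun g => φ (Matrix.GeneralLinearGroup.map ((i : k ≃+* k') : k →+* k') g)) := by
  classical
  obtain ⟨F, hF⟩ := hφ
  refine ⟨F.image (Matrix.GeneralLinearGroup.map ((i.symm : k' ≃+* k) : k' →+* k)), ?_⟩
  intro g hg
  obtain ⟨x, hx, u, hu, hgx⟩ := hF _ hg
  refine ⟨_, Finset.mem_image_of_mem _ hx,
    Matrix.GeneralLinearGroup.map ((i.symm : k' ≃+* k) : k' →+* k) u,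
    inU_map555 _ (val_symm555 i hval) n u hu, ?_⟩
  rw [← map_mul, ← hgx, map_symm_map555]

end Transfer

/-! ## 2. The core -/

section Core

variable {K K' : Type} [Field K] [NumberField K] [Field K'] [NumberField K'] [Algebra K K']

/-- The split integral at a split place is the local integral downstairs. -/
theorem splitInt_eq_locInt555 (hT6 : T6.T6Out) (D : CompData K K') (hD : IsCompData D)
    (n : HeightOneSpectrum (𝓞 K') → ℕ) (m : HeightOneSpectrum (𝓞 K) → ℕ)
    (φ₀ : ∀ w : HeightOneSpectrum (𝓞 K'), GL (Fin 2) (w.adicCompletion K') → ℂ)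
    (f₀ : ∀ v : HeightOneSpectrum (𝓞 K), GL (Fin 2) (v.adicCompletion K) → ℂ)
    (δ : GL (Fin 2) K') (γ : GL (Fin 2) K) (hEll : T6.IsEll γ)
    (hN : D.s.normUpTo D.l δ = Matrix.GeneralLinearGroup.map (algebraMap K K') γ)
    (L : LocData305 K γ) (hL : IsLocData305 m L)
    (v : HeightOneSpectrum (𝓞 K)) (hl : 0 < D.l) (w : ℕ → HeightOneSpectrum (𝓞 K'))
    (i : ∀ j : ℕ, v.adicCompletion K ≃+* (w j).adicCompletion K')
    (hrel : ∀ j : ℕ, T5.PlaceRel D.s (w (j + 1)) (w j))
    (hi : ∀ (j : ℕ) (x : K), i j (algebraMap K (v.adicCompletion K) x)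
      = algebraMap K' ((w j).adicCompletion K') (algebraMap K K' x))
    (hval : ∀ (j : ℕ) (x : v.adicCompletion K), Valued.v (i j x) = Valued.v x)
    (hlev : ∀ j : ℕ, n (w j) = m v)
    (hup : ∀ j : ℕ, T6.IsBiInv (T6.InU (n (w j))) (φ₀ (w j))
      ∧ T6.HasFinSupp (T6.InU (n (w j))) (φ₀ (w j)))
    (hconv : T6.IsConvProd (T6.InU (m v)) D.l
      (fun j g => φ₀ (w j)
        (Matrix.GeneralLinearGroup.map ((i j : v.adicCompletion K ≃+* _) :
          v.adicCompletion K →+* (w j).adicCompletion K') g))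
      (f₀ v)) :
    splitInt340 D.l hl (L.μv v) (L.βv v)
        (fun j g => φ₀ (w j)
          (Matrix.GeneralLinearGroup.map ((i j : v.adicCompletion K ≃+* _) :
            v.adicCompletion K →+* (w j).adicCompletion K') g))
        (fun j => Matrix.GeneralLinearGroup.map
          (((i j).symm : (w j).adicCompletion K' ≃+* _) :
            (w j).adicCompletion K' →+* v.adicCompletion K) (locG305 (w j) δ))
      = locInt305 (L.μv v) (L.βv v) (f₀ v) (locG305 v γ) := by
  obtain ⟨_, _, _, _, _, hInstLoc, _⟩ := hT6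
  have hk := hInstLoc K v
  obtain ⟨hμ1, hμ2⟩ := hL.haar v
  obtain ⟨hμt1, _⟩ := hL.tor v
  have hcut := hL.cut v
  obtain ⟨hβ1, hβ2, _⟩ := hL.cut v
  haveI : SecondCountableTopology (GL (Fin 2) (v.adicCompletion K)) :=
    T6.H846.secondCountable_GL846 hk
  haveI : LocallyCompactSpace (GL (Fin 2) (v.adicCompletion K)) :=
    T6.H420.locallyCompactSpace_GL hk
  letI : MeasurableSpace (GL (Fin 2) (v.adicCompletion K)) := borel _
  haveI : BorelSpace (GL (Fin 2) (v.adicCompletion K)) := ⟨rfl⟩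
  haveI : (L.μv v).IsHaarMeasure := hμ1
  -- the functions `φ_j`
  have hbi : ∀ j : ℕ, T6.IsBiInv (T6.InU (m v))
      (fun g => φ₀ (w j)
        (Matrix.GeneralLinearGroup.map ((i j : v.adicCompletion K ≃+* _) :
          v.adicCompletion K →+* (w j).adicCompletion K') g)) := by
    intro j
    have h := (hup j).1
    rw [hlev j] at h
    exact biInv_comp555 (i j) (hval j) (m v) _ h
  have hfs : ∀ j : ℕ, T6.HasFinSupp (T6.InU (m v))
      (fun g => φ₀ (w j)
        (Matrix.GeneralLinearGroup.map ((i j : v.adicCompletion K ≃+* _) :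
          v.adicCompletion K →+* (w j).adicCompletion K') g)) := by
    intro j
    have h := (hup j).2
    rw [hlev j] at h
    exact finSupp_comp555 (i j) (hval j) (m v) _ h
  have hUo : IsOpen ((T6.H846.subU846 (v.adicCompletion K) (m v) :
      Subgroup (GL (Fin 2) (v.adicCompletion K))) : Set (GL (Fin 2) (v.adicCompletion K))) :=
    T6.H846.isOpen_InU846 hk (m v)
  have hUc : IsCompact ((T6.H846.subU846 (v.adicCompletion K) (m v) :
      Subgroup (GL (Fin 2) (v.adicCompletion K))) : Set (GL (Fin 2) (v.adicCompletion K))) :=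
    T6.H420.isCompact_subU hk (m v)
  have hcont : ∀ j : ℕ, Continuous
      (fun g => φ₀ (w j)
        (Matrix.GeneralLinearGroup.map ((i j : v.adicCompletion K ≃+* _) :
          v.adicCompletion K →+* (w j).adicCompletion K') g)) := by
    intro j
    refine continuous_of_rightInv555 _ hUo _ fun g u hu => ?_
    have h := hbi j 1 u g (T6.H846.inU_one846 _) hu
    rwa [one_mul] at h
  have hsupp : ∀ j : ℕ, HasCompactSupport
      (fun g => φ₀ (w j)
        (Matrix.GeneralLinearGroup.map ((i j : v.adicCompletion K ≃+* _) :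
          v.adicCompletion K →+* (w j).adicCompletion K') g)) :=
    fun j => hasCompactSupport_of_finSupp555 _ hUc _ (hfs j)
  -- the product of the `δ_j`
  have hP := prodFrom_eq_locG555 D hD v w i hrel hi hval δ γ D.l hN
  -- integrability
  have hreg : T6.IsReg (locG305 v γ) := isReg_map555 _ hEll.1
  have hint : ∀ Kc : Set (GL (Fin 2) (v.adicCompletion K)), IsCompact Kc →
      Integrable (fun a : GL (Fin 2) (v.adicCompletion K) =>
        Kc.indicator (fun _ => (1 : ℝ))
          (a⁻¹ * prodFrom159 (fun j => Matrix.GeneralLinearGroup.map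
            (((i j).symm : (w j).adicCompletion K' ≃+* _) :
              (w j).adicCompletion K' →+* v.adicCompletion K) (locG305 (w j) δ)) D.l 0 * a)
          * L.βv v a) (L.μv v) := by
    intro Kc hKc
    rw [hP]
    have h := H194.hint_locCut194 (locG305 v γ) hreg 1 (fun x => by rw [one_mul, mul_one])
      (L.μv v) hμ1 (L.μt v) hμt1 (L.βv v) hcut Kc hKc
    rw [mul_one] at h
    exact h
  -- Fubini
  rw [splitInt340_eq555 D.l hl (L.μv v) inferInstance inferInstance inferInstance _ _ hcont hsupp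
    (L.βv v) hβ1 hβ2 hint, hP]
  -- the convolution identity
  have hU : H584.IsUnitVol584 (L.μv v) (T6.InU (m v) : GL (Fin 2) (v.adicCompletion K) → Prop) :=
    { one := T6.H846.inU_one846 _
      mul := fun a b ha hb => T6.H846.inU_mul846 _ a b ha hb
      inv := fun a ha => T6.H846.inU_inv846 _ a ha
      meas := (T6.H846.isOpen_InU846 hk (m v)).measurableSet
      vol := hμ2 }
  have hf := H584.convL_eq_of_isConvProd584 hU D.l _ (f₀ v) hbi hconv
  rw [← hf]
  rfl

end Core

/-! ## 3. The leaves -/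

section Leaves

variable (K K' : Type) [Field K] [NumberField K] [Field K'] [NumberField K'] [Algebra K K']

/-- **LEAF C2.7.13.3b = LOC-EQ-SPLIT for ONE enumeration**, VERBATIM. -/
theorem locEqSplitC305b555 : LocEqSplitC305b K K' := by
  intro hT6 D hD _hcyc _hl2 _hTC μc S n m φ₀ Φ f₀ F hLoc δ γ hEll hN L hL v hv J hJ
  obtain ⟨hl, w, i, hovr, hrel, _hne, hi, hval, hlev, hconv, rfl⟩ := hJ
  exact splitInt_eq_locInt555 hT6 D hD n m φ₀ f₀ δ γ hEll hN L hL v hl w i hrel hi hval hlev
    (fun j => hLoc.inv_up v hv (w j) (hovr j)) hconv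

/-- **LEAF C2.7.13.3 = LOC-EQ-SPLIT**, VERBATIM. -/
theorem locEqSplitC340_555 : LocEqSplitC340 K K' := by
  intro hT6 D hD _hcyc _hl2 _hTC μc S n m φ₀ Φ f₀ F hLoc δ γ hEll hN L hL v hv J hJ
  obtain ⟨hl, w, i, hovr, hrel, hne, hi, hval, rfl⟩ := hJ
  obtain ⟨hlev, hconv⟩ := hLoc.split v hv w i hovr hrel hne hi hval
  exact splitInt_eq_locInt555 hT6 D hD n m φ₀ f₀ δ γ hEll hN L hL v hl w i hrel hi hval hlev
    (fun j => hLoc.inv_up v hv (w j) (hovr j)) hconv

example : H305.LocEqSplitC305b K K' := locEqSplitC305b555 K K'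
example : H340.LocEqSplitC340 K K' := locEqSplitC340_555 K K'

end Leaves

end Fermat.Agent.LT.T7.H555

end
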